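import Fermat.Agent.Nondivergence.Extremal
import Mathlib.Analysis.Normed.Module.FiniteDimension
import Mathlib.LinearAlgebra.Lagrange
import Mathlib.Topology.Algebra.Polynomial

/-!
# Polynomial curves

Polynomials of bounded degree are uniformly good, so a polynomial curve that lies in no affine
hyperplane is tame; for the curve `(x, x ^ 2, …, x ^ d)` this gives Mahler's conjecture.
-/

set_option autoImplicit false

noncomputable section

open Finset MeasureTheory Polynomial
open scoped ENNReal NNReal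

namespace FA.Nondivergence

open FA.Transference

variable {d : ℕ}

/-- A set of positive measure has points at mutual distances comparable to its measure. -/
theorem exists_separated {E : Set ℝ} {s : ℝ} (N : ℕ)
    (hm : ENNReal.ofReal ((N : ℝ) * (2 * s)) < volume E) :
    ∀ j ≤ N + 1, ∃ S : Finset ℝ, ↑S ⊆ E ∧ S.card = j ∧ ∀ x ∈ S, ∀ y ∈ S, x ≠ y → s ≤ |x - y| := by
  intro j hj
  induction j with
  | zero => exact ⟨∅, by simp, rfl, by simp⟩
  | succ j ih =>
    obtain ⟨S, hSE, hS, hsep⟩ := ih (by omega)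
    rcases le_or_gt s 0 with hs | hs
    · obtain ⟨T, hTE, hT⟩ : ∃ T : Finset ℝ, ↑T ⊆ E ∧ T.card = j + 1 := by
        have hinf : E.Infinite := fun hfin => by
          rw [hfin.measure_zero] at hm
          exact not_lt_zero hm
        obtain ⟨T, h1, h2⟩ := hinf.exists_subset_card_eq (j + 1)
        exact ⟨T, h1, h2⟩
      exact ⟨T, hTE, hT, fun x _ y _ _ => hs.trans (abs_nonneg _)⟩
    obtain ⟨z, hzE, hz⟩ : ∃ z ∈ E, ∀ x ∈ S, s ≤ |z - x| := by
      by_contra! h
      have hsub : E ⊆ ⋃ x ∈ S, Set.Ioo (x - s) (x + s) := fun z hz => by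
        obtain ⟨x, hx, hlt⟩ := h z hz
        exact Set.mem_biUnion hx ⟨by linarith [(abs_lt.1 hlt).1], by linarith [(abs_lt.1 hlt).2]⟩
      refine absurd hm (not_lt.2 ((measure_mono hsub).trans
        ((measure_biUnion_finset_le _ _).trans ?_)))
      simp only [Real.volume_Ioo]
      rw [← ENNReal.ofReal_sum_of_nonneg fun _ _ => by linarith]
      refine ENNReal.ofReal_le_ofReal ?_
      rw [sum_congr rfl fun x _ => (by ring : (x + s) - (x - s) = 2 * s), sum_const, nsmul_eq_mul]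
      gcongr
      omega
    refine ⟨insert z S, ?_, ?_, ?_⟩
    · rw [coe_insert]
      exact Set.insert_subset hzE hSE
    · rw [card_insert_of_notMem fun h => absurd (hz z h) (by simp [hs]), hS]
    · intro x hx y hy hne
      rcases mem_insert.1 hx with e | hx' <;> rcases mem_insert.1 hy with e' | hy'
      · exact absurd (e.trans e'.symm) hne
      · exact e ▸ hz y hy'
      · rw [e', abs_sub_comm]
        exact hz x hx'
      · exact hsep x hx' y hy' hne

/-- An interpolant of small values at separated nodes is small. -/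
theorem abs_eval_interpolate_le {S : Finset ℝ} {g : ℝ → ℝ} {ε s h y : ℝ} {k : ℕ}
    (hε : 0 ≤ ε) (hs : 0 < s) (hS : S.card = k + 1) (hg : ∀ x ∈ S, |g x| ≤ ε)
    (hsep : ∀ x ∈ S, ∀ z ∈ S, x ≠ z → s ≤ |x - z|) (hy : ∀ x ∈ S, |y - x| ≤ h) :
    |(Lagrange.interpolate S id g).eval y| ≤ ((k : ℝ) + 1) * ε * (h / s) ^ k := by
  rw [Lagrange.interpolate_apply, eval_finsetSum]
  refine (abs_sum_le_sum_abs _ _).trans
    ((sum_le_card_nsmul _ _ (ε * (h / s) ^ k) fun x hx => ?_).trans_eq ?_)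
  · rw [eval_mul, eval_C, abs_mul]
    refine mul_le_mul (hg x hx) ?_ (abs_nonneg _) hε
    rw [Lagrange.basis, eval_prod, abs_prod]
    refine (prod_le_prod (fun _ _ => abs_nonneg _) fun x' hx' => ?_).trans_eq
      (by rw [prod_const, card_erase_of_mem hx, hS, Nat.add_sub_cancel])
    simp only [Lagrange.basisDivisor, id_eq, eval_mul, eval_C, eval_sub, eval_X,
      inv_mul_eq_div, abs_div]
    exact div_le_div₀ ((abs_nonneg _).trans (hy x hx)) (hy x' (mem_of_mem_erase hx')) hs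
      (hsep x hx x' (mem_of_mem_erase hx') (ne_of_mem_erase hx').symm)
  · rw [hS, nsmul_eq_mul, Nat.cast_add, Nat.cast_one, mul_assoc]

/-- The constant of polynomials of degree at most `D`. -/
def polyConst (D : ℕ) : ℝ := 4 * ((D : ℝ) + 1) ^ 2

/-- **Polynomials are good.** -/
theorem isGood_polynomial {D : ℕ} (hD : 0 < D) {p : ℝ[X]} (hp : p.natDegree ≤ D) (a b : ℝ) :
    IsGood (polyConst D) (1 / D) a b fun x => p.eval x := by
  intro l r _ hlr _ y hy ε hε hne
  set E := {x ∈ Set.Ioo l r | |p.eval x| < ε} with hE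
  set B := polyConst D * (ε / |p.eval y|) ^ (1 / (D : ℝ)) * (r - l) with hB
  by_contra hbig
  rw [not_le] at hbig
  have hDR : (0 : ℝ) < D := Nat.cast_pos.2 hD
  have hy0 : 0 < |p.eval y| := abs_pos.2 hne
  have hB0 : 0 < B := mul_pos (mul_pos (by unfold polyConst; positivity)
    (Real.rpow_pos_of_pos (div_pos hε hy0) _)) (sub_pos.2 hlr)
  set s : ℝ := B / (2 * ((D : ℝ) + 1)) with hs
  have hs0 : 0 < s := div_pos hB0 (by positivity)
  obtain ⟨S, hSE, hScard, hsep⟩ := exists_separated (E := E) (s := s) D (by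
    refine lt_of_le_of_lt (ENNReal.ofReal_le_ofReal ?_) hbig
    rw [hs]
    field_simp
    linarith) (D + 1) le_rfl
  have hdeg : p.degree < S.card := by
    rw [hScard]
    exact degree_le_natDegree.trans_lt (WithBot.coe_lt_coe.2 (Nat.lt_succ_of_le hp))
  have hinterp := Lagrange.eq_interpolate (v := id) Function.injective_id.injOn hdeg
  have hkey : |p.eval y| ≤ ((D : ℝ) + 1) * ε * ((r - l) / s) ^ D := by
    conv_lhs => rw [hinterp]
    refine abs_eval_interpolate_le hε.le hs0 hScard (fun x hx => (hSE hx).2.le) hsep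
      fun x hx => abs_le.2 ⟨?_, ?_⟩
    · linarith [hy.1, (hSE hx).1.2]
    · linarith [hy.2, (hSE hx).1.1]
  -- solve for the measure
  set e := ε / |p.eval y| with he
  have he0 : 0 < e := div_pos hε hy0
  have hrs : (r - l) / s = 2 * ((D : ℝ) + 1) / (polyConst D * e ^ (1 / (D : ℝ))) := by
    rw [hs, hB]
    field_simp [(sub_pos.2 hlr).ne']
  rw [hrs, polyConst, div_pow, mul_pow (4 * ((D : ℝ) + 1) ^ 2), one_div,
    Real.rpow_inv_natCast_pow he0.le hD.ne'] at hkey
  have hA : (2 * ((D : ℝ) + 1)) ^ D * (2 * ((D : ℝ) + 1)) ^ D =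
      (4 * ((D : ℝ) + 1) ^ 2) ^ D := by
    rw [← mul_pow]; ring_nf
  have hC : ((D : ℝ) + 1) < (2 * ((D : ℝ) + 1)) ^ D :=
    lt_of_lt_of_le (by linarith) (le_self_pow₀ (by linarith) hD.ne')
  rw [mul_div_assoc', le_div_iff₀ (by positivity), ← hA, he] at hkey
  have hpe : |p.eval y| * (ε / |p.eval y|) = ε := mul_div_cancel₀ _ hy0.ne'
  have hP : 0 < (2 * ((D : ℝ) + 1)) ^ D := by positivity
  have h2 : (2 * ((D : ℝ) + 1)) ^ D * ε ≤ ((D : ℝ) + 1) * ε := by
    refine le_of_mul_le_mul_right ?_ hP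
    calc (2 * ((D : ℝ) + 1)) ^ D * ε * (2 * ((D : ℝ) + 1)) ^ D
        = |p.eval y| * ((2 * ((D : ℝ) + 1)) ^ D * (2 * ((D : ℝ) + 1)) ^ D *
            (ε / |p.eval y|)) := by
          conv_lhs => rw [← hpe]
          ring
      _ ≤ _ := hkey
  linarith [le_of_mul_le_mul_right h2 hε]

/-- The combination of `1` and the `P i` with coefficients `c`. -/
def combPoly (P : Fin d → ℝ[X]) (c : Fin (d + 1) → ℝ) : ℝ[X] :=
  ∑ j, c j • (Fin.cons 1 P : Fin (d + 1) → ℝ[X]) j

theorem eval_combPoly (P : Fin d → ℝ[X]) (c : Fin (d + 1) → ℝ) (x : ℝ) :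
    (combPoly P c).eval x =
      ∑ j, c j * (Fin.cons 1 (fun i => (P i).eval x) : Fin (d + 1) → ℝ) j := by
  rw [combPoly, eval_finsetSum]
  refine sum_congr rfl fun j _ => ?_
  refine Fin.cases ?_ (fun i => ?_) j <;> simp

theorem natDegree_combPoly_le (P : Fin d → ℝ[X]) (c : Fin (d + 1) → ℝ) :
    (combPoly P c).natDegree ≤ univ.sup (fun i => (P i).natDegree) + 1 := by
  refine natDegree_sum_le_of_forall_le _ _ fun j _ => (natDegree_smul_le _ _).trans ?_
  refine Fin.cases ?_ (fun i => ?_) j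
  · simp
  · simp only [Fin.cons_succ]
    exact (le_sup (f := fun i => (P i).natDegree) (mem_univ i)).trans (Nat.le_succ _)

/-- A polynomial curve in no affine hyperplane is tame. -/
theorem isTame_polynomial {P : Fin d → ℝ[X]}
    (hP : LinearIndependent ℝ (Fin.cons 1 P : Fin (d + 1) → ℝ[X])) {a b : ℝ} (hab : a < b) :
    IsTame (fun x i => (P i).eval x) a b := by
  set D := univ.sup (fun i => (P i).natDegree) + 1 with hD
  refine ⟨continuous_pi fun i => (P i).continuous, polyConst D, 1 / D, ?_⟩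
  set pts : Fin (D + 1) → ℝ := fun i => a + (b - a) * ((i : ℝ) / D) with hpts
  have hptsI : ∀ i, pts i ∈ Set.Icc a b := fun i => by
    have h1 : (i : ℝ) / D ≤ 1 := by
      rw [div_le_one (by positivity)]
      exact_mod_cast Nat.lt_succ_iff.1 i.isLt
    have h2 : (0 : ℝ) ≤ (i : ℝ) / D := by positivity
    constructor
    · linarith [mul_nonneg (sub_nonneg.2 hab.le) h2]
    · linarith [mul_le_mul_of_nonneg_left h1 (sub_nonneg.2 hab.le)]
  have hinj : Function.Injective pts := fun i j h => by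
    simp only [hpts, add_right_inj, mul_eq_mul_left_iff, (sub_pos.2 hab).ne', or_false] at h
    rw [div_left_inj' (by positivity)] at h
    exact Fin.ext (by exact_mod_cast h)
  let L : (Fin (d + 1) → ℝ) →ₗ[ℝ] (Fin (D + 1) → ℝ) :=
    { toFun := fun c i => (combPoly P c).eval (pts i)
      map_add' := fun c c' => by ext i; simp [eval_combPoly, add_mul, sum_add_distrib]
      map_smul' := fun z c => by ext i; simp [eval_combPoly, mul_sum, mul_assoc] }
  have hker : LinearMap.ker L = ⊥ := by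
    refine LinearMap.ker_eq_bot'.2 fun c hc => ?_
    have h0 : combPoly P c = 0 :=
      eq_zero_of_natDegree_lt_card_of_eval_eq_zero _ hinj (congrFun hc)
        (by rw [Fintype.card_fin]; exact Nat.lt_succ_of_le (natDegree_combPoly_le P c))
    exact funext (Fintype.linearIndependent_iff.1 hP c h0)
  obtain ⟨K, hK, hanti⟩ := L.exists_antilipschitzWith hker
  refine ⟨1 / (K : ℝ), by unfold polyConst; positivity, by positivity, by positivity,
    fun c => ⟨?_, ?_⟩⟩
  · have h := isGood_polynomial (D := D) (Nat.succ_pos _) (natDegree_combPoly_le P c) a b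
    simpa only [eval_combPoly] using h
  · obtain ⟨i, -, hi⟩ := exists_max_image univ (fun i => |L c i|) univ_nonempty
    refine ⟨pts i, hptsI i, ?_⟩
    rw [← eval_combPoly, one_div_mul_eq_div, div_le_iff₀' (NNReal.coe_pos.2 hK)]
    refine (ZeroHomClass.bound_of_antilipschitz L hanti c).trans
      (mul_le_mul_of_nonneg_left ?_ K.coe_nonneg)
    exact (pi_norm_le_iff_of_nonneg (abs_nonneg _)).2 fun j => hi j (mem_univ j)

theorem ae_of_forall_interval {p : ℝ → Prop}
    (h : ∀ a b : ℝ, a < b → ∀ᵐ x : ℝ, x ∈ Set.Ioo a b → p x) : ∀ᵐ x : ℝ, p x := by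
  filter_upwards [ae_all_iff.2 fun N : ℕ => h (-(N : ℝ) - 1) ((N : ℝ) + 1)
    (by linarith [Nat.cast_nonneg (α := ℝ) N])] with x hx
  obtain ⟨N, hN⟩ := exists_nat_gt |x|
  exact hx N ⟨by linarith [(abs_lt.1 hN).1], by linarith [(abs_lt.1 hN).2]⟩

/-- **Polynomial curves in no affine hyperplane are extremal.** -/
theorem ae_polynomial_curve (hd : 0 < d) {P : Fin d → ℝ[X]}
    (hP : LinearIndependent ℝ (Fin.cons 1 P : Fin (d + 1) → ℝ[X])) :
    ∀ᵐ x : ℝ, ∀ w : ℝ, (d : ℝ) < w → (formSet (fun i => (P i).eval x) w).Finite :=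
  ae_of_forall_interval fun _ _ hab =>
    ae_not_veryWellApproximable hd hab (isTame_polynomial hP hab)

theorem linearIndependent_powers (d : ℕ) :
    LinearIndependent ℝ
      (Fin.cons 1 (fun i : Fin d => X ^ ((i : ℕ) + 1)) : Fin (d + 1) → ℝ[X]) := by
  have e : (Fin.cons 1 (fun i : Fin d => X ^ ((i : ℕ) + 1)) : Fin (d + 1) → ℝ[X]) =
      fun j : Fin (d + 1) => monomial (R := ℝ) (j : ℕ) 1 := by
    funext j
    refine Fin.cases ?_ (fun i => ?_) j <;> simp [monomial_one_right_eq_X_pow]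
  rw [e]
  refine Fintype.linearIndependent_iff.2 fun g hg j => ?_
  have := congrArg (fun p => coeff p (j : ℕ)) hg
  simpa [coeff_monomial, Fin.val_inj] using this

/-- **Mahler's conjecture** (Sprindžuk's theorem). -/
theorem ae_veronese_curve (hd : 0 < d) :
    ∀ᵐ x : ℝ, ∀ w : ℝ, (d : ℝ) < w →
      (formSet (fun i : Fin d => x ^ ((i : ℕ) + 1)) w).Finite := by
  filter_upwards [ae_polynomial_curve hd (linearIndependent_powers d)] with x hx w hw
  simpa using hx w hw

theorem finite_small_values {x : ℝ} {w : ℝ} (hw : 0 < w)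
    (h : (formSet (fun i : Fin d => x ^ ((i : ℕ) + 1)) w).Finite) :
    {P : Fin (d + 1) → ℤ | P ≠ 0 ∧
      |∑ j, (P j : ℝ) * x ^ (j : ℕ)| ≤ ‖P‖ ^ (-w)}.Finite := by
  set T := insert 0 (formSet (fun i : Fin d => x ^ ((i : ℕ) + 1)) w) with hT
  refine Set.Finite.subset ((h.insert 0).biUnion (t := fun m =>
    (fun n => (Fin.cons n m : Fin (d + 1) → ℤ)) '' Set.Icc
      (-⌈|∑ i, (m i : ℝ) * x ^ ((i : ℕ) + 1)| + 1⌉) ⌈|∑ i, (m i : ℝ) * x ^ ((i : ℕ) + 1)| + 1⌉)
    fun m _ => (Set.finite_Icc _ _).image _) ?_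
  rintro P ⟨hP, hle⟩
  have hP1 : 1 ≤ ‖P‖ := one_le_norm_intVector hP
  have hsum : ∑ j, (P j : ℝ) * x ^ (j : ℕ) =
      (P 0 : ℝ) + ∑ i : Fin d, (P i.succ : ℝ) * x ^ ((i : ℕ) + 1) := by
    simp [Fin.sum_univ_succ]
  rw [hsum] at hle
  refine Set.mem_biUnion (x := fun i : Fin d => P i.succ) ?_ ⟨P 0, ?_, Fin.cons_self_tail P⟩
  · rcases eq_or_ne (fun i : Fin d => P i.succ) 0 with h0 | h0
    · exact Or.inl h0
    · refine Or.inr ⟨h0, P 0, ?_⟩
      rw [add_comm]
      refine hle.trans (Real.rpow_le_rpow_of_nonpos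
        (zero_lt_one.trans_le (one_le_norm_intVector h0)) ?_ (by linarith))
      exact (pi_norm_le_iff_of_nonneg (norm_nonneg _)).2 fun i => norm_le_pi_norm P i.succ
  · refine Set.mem_Icc.2 (abs_le.1 ?_)
    have h1 : |(P 0 : ℝ)| ≤ |∑ i : Fin d, (P i.succ : ℝ) * x ^ ((i : ℕ) + 1)| + 1 := by
      have h2 : ‖P‖ ^ (-w) ≤ 1 := Real.rpow_le_one_of_one_le_of_nonpos hP1 (by linarith)
      have h3 := abs_sub_abs_le_abs_add (P 0 : ℝ)
        (∑ i : Fin d, (P i.succ : ℝ) * x ^ ((i : ℕ) + 1))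
      linarith
    exact_mod_cast h1.trans (Int.le_ceil _)

/-- **Sprindžuk's theorem** on small values of integral polynomials. -/
theorem ae_finite_small_values (hd : 0 < d) :
    ∀ᵐ x : ℝ, ∀ w : ℝ, (d : ℝ) < w → {P : Fin (d + 1) → ℤ | P ≠ 0 ∧
      |∑ j, (P j : ℝ) * x ^ (j : ℕ)| ≤ ‖P‖ ^ (-w)}.Finite := by
  filter_upwards [ae_veronese_curve hd] with x hx w hw
  exact finite_small_values ((Nat.cast_nonneg d).trans_lt hw) (hx w hw)

theorem simSet_finite_of_formSet (hd : 0 < d) {x : Fin d → ℝ}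
    (h : ∀ w : ℝ, (d : ℝ) < w → (formSet x w).Finite) {w : ℝ} (hw : 1 / (d : ℝ) < w) :
    (simSet x w).Finite := by
  by_contra hinf
  obtain ⟨w', hw', hinf'⟩ := (veryWellApproximable_iff hd x).1 ⟨w, hw, hinf⟩
  exact hinf' (h w' hw')

end FA.Nondivergence
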