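import Fermat.Agent.Nondivergence.Smooth
import Mathlib.Analysis.Analytic.Polynomial
import Mathlib.MeasureTheory.Measure.Lebesgue.Basic

/-!
# Analytic submanifolds

An interpolation curve through points with affinely independent images stays nonplanar under small
translations, so by Fubini the theorem for curves gives strong extremality of analytic maps of
several variables.
-/

set_option autoImplicit false

noncomputable section

open Finset MeasureTheory Polynomial Filter
open scoped Topology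

namespace FA.Nondivergence

open FA.Transference

variable {k d : ℕ}

/-- Strong extremality at a point of `ℝ ^ d`. -/
def IsStronglyExtremalPoint (v : Fin d → ℝ) : Prop := ∀ w : ℝ, 1 < w → (mulSet v w).Finite

theorem isStronglyExtremalPoint_iff (v : Fin d → ℝ) :
    IsStronglyExtremalPoint v ↔ ∀ j : ℕ, (mulSet v (1 + 1 / ((j : ℝ) + 1))).Finite := by
  refine ⟨fun h j => h _ (lt_add_of_pos_right _ (by positivity)), fun h w hw => ?_⟩
  obtain ⟨j, hj⟩ := exists_nat_one_div_lt (sub_pos.2 hw)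
  exact (h j).subset (mulSet_anti (by linarith))

theorem measurableSet_isStronglyExtremalPoint :
    MeasurableSet {v : Fin d → ℝ | IsStronglyExtremalPoint v} := by
  have hA : ∀ (m : Fin d → ℤ) (w : ℝ), MeasurableSet {v : Fin d → ℝ | m ∈ mulSet v w} := by
    intro m w
    have e : {v : Fin d → ℝ | m ∈ mulSet v w} = ⋃ n : ℤ,
        {v : Fin d → ℝ | m ≠ 0 ∧ |∑ i, (m i : ℝ) * v i + n| ≤ prodPos m ^ (-w)} := by
      ext v
      simp only [Set.mem_ofPred_eq, mulSet, Set.mem_iUnion]
      exact ⟨fun ⟨h1, n, h2⟩ => ⟨n, h1, h2⟩, fun ⟨n, h1, h2⟩ => ⟨h1, n, h2⟩⟩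
    rw [e]
    refine MeasurableSet.iUnion fun n => ?_
    by_cases hm : m = 0
    · simp [hm]
    · simp only [ne_eq, hm, not_false_eq_true, true_and]
      exact (isClosed_le (by fun_prop) continuous_const).measurableSet
  have e : {v : Fin d → ℝ | IsStronglyExtremalPoint v} = ⋂ j : ℕ, ⋃ R : ℕ,
      ⋂ m : {m : Fin d → ℤ // (R : ℝ) < ‖m‖},
        {v : Fin d → ℝ | (m : Fin d → ℤ) ∈ mulSet v (1 + 1 / ((j : ℝ) + 1))}ᶜ := by
    ext v
    simp only [Set.mem_ofPred_eq, isStronglyExtremalPoint_iff, Set.mem_iInter, Set.mem_iUnion,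
      Set.mem_compl_iff]
    refine forall_congr' fun j => ⟨fun h => ?_, fun ⟨R, hR⟩ => ?_⟩
    · obtain ⟨B, hB⟩ := (h.image fun m : Fin d → ℤ => ‖m‖).bddAbove
      obtain ⟨R, hR⟩ := exists_nat_ge B
      exact ⟨R, fun m hm => m.2.not_ge ((hB ⟨_, hm, rfl⟩).trans hR)⟩
    · by_contra hinf
      obtain ⟨m, hm, hmR⟩ := exists_norm_gt hinf R
      exact hR ⟨m, hmR⟩ hm
  rw [e]
  exact MeasurableSet.iInter fun j => MeasurableSet.iUnion fun R =>
    MeasurableSet.iInter fun m => (hA _ _).compl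

/-- Points in any ball of the domain with affinely independent images. -/
theorem exists_independent_points {f : (Fin k → ℝ) → Fin d → ℝ} {U : Set (Fin k → ℝ)}
    (hU : IsPreconnected U) (hf : AnalyticOnNhd ℝ f U)
    (hind : ∀ (a : Fin d → ℝ) (z : ℝ), (∀ x ∈ U, ∑ i, a i * f x i = z) → a = 0)
    {c : Fin k → ℝ} (hc : c ∈ U) {ρ : ℝ} (hρ : 0 < ρ) :
    ∃ p : Fin (d + 1) → Fin k → ℝ, (∀ j, p j ∈ Metric.ball c ρ) ∧
      (Matrix.of fun j => (Fin.cons 1 (f (p j)) : Fin (d + 1) → ℝ)).det ≠ 0 := by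
  set s : Set (Fin (d + 1) → ℝ) :=
    (fun p => (Fin.cons 1 (f p) : Fin (d + 1) → ℝ)) '' Metric.ball c ρ with hs
  have htop : Submodule.span ℝ s = ⊤ := by
    by_contra hne
    obtain ⟨φ, hφ, hker⟩ := Submodule.exists_le_ker_of_lt_top _ (lt_top_iff_ne_top.2 hne)
    set a : Fin (d + 1) → ℝ := fun i => φ (Pi.single i 1) with ha
    have hexp : ∀ v : Fin (d + 1) → ℝ, φ v = ∑ i, a i * v i := fun v => by
      conv_lhs => rw [pi_eq_sum_univ' v, map_sum]
      exact sum_congr rfl fun i _ => by rw [map_smul, smul_eq_mul, mul_comm]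
    set g : (Fin k → ℝ) → ℝ := fun x => a 0 + ∑ i : Fin d, a i.succ * f x i with hg
    have hga : AnalyticOnNhd ℝ g U := fun x hx => analyticAt_const.add
      (Finset.analyticAt_fun_sum _ fun i _ => analyticAt_const.mul
        ((analyticAt_pi_iff.1 (hf x hx)) i))
    have hball : g =ᶠ[𝓝 c] 0 := by
      filter_upwards [Metric.ball_mem_nhds c hρ] with x hx
      have h0 : φ (Fin.cons 1 (f x) : Fin (d + 1) → ℝ) = 0 :=
        LinearMap.mem_ker.1 (hker (Submodule.subset_span ⟨x, hx, rfl⟩))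
      simpa [hexp, Fin.sum_univ_succ, hg] using h0
    have hEq := hga.eqOn_zero_of_preconnected_of_eventuallyEq_zero hU hc hball
    have hsucc : ∀ i : Fin d, a i.succ = 0 := congrFun (hind (fun i => a i.succ) (-a 0) fun x hx =>
      eq_neg_of_add_eq_zero_right (hEq hx))
    have h00 : a 0 = 0 := by simpa [hg, hsucc] using hEq hc
    exact hφ (LinearMap.ext fun v => by
      rw [hexp]
      exact sum_eq_zero fun i _ => by
        rw [Fin.cases (motive := fun i => a i = 0) h00 hsucc i, zero_mul])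
  obtain ⟨b, hbs, -, hbi⟩ := Submodule.exists_fun_fin_finrank_span_eq ℝ s
  have hn : Module.finrank ℝ (Submodule.span ℝ s) = d + 1 := by
    rw [htop, finrank_top, Module.finrank_pi, Fintype.card_fin]
  choose p hp hpb using fun j : Fin (d + 1) => hbs (Fin.cast hn.symm j)
  refine ⟨p, hp, ?_⟩
  rw [← isUnit_iff_ne_zero, ← Matrix.isUnit_iff_isUnit_det,
    ← Matrix.linearIndependent_rows_iff_isUnit]
  have e : (Matrix.of fun j => (Fin.cons 1 (f (p j)) : Fin (d + 1) → ℝ)).row =
      b ∘ Fin.cast hn.symm := funext fun j => hpb j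
  rw [e]
  exact hbi.comp _ (Fin.cast_injective _)

/-- A polynomial curve in a ball from its centre through independent points. -/
theorem exists_curve {f : (Fin k → ℝ) → Fin d → ℝ} {U : Set (Fin k → ℝ)}
    (hU : IsPreconnected U) (hf : AnalyticOnNhd ℝ f U)
    (hind : ∀ (a : Fin d → ℝ) (z : ℝ), (∀ x ∈ U, ∑ i, a i * f x i = z) → a = 0)
    {c : Fin k → ℝ} (hc : c ∈ U) {r : ℝ} (hr : 0 < r) (hball : Metric.ball c r ⊆ U) :
    ∃ γ : ℝ → Fin k → ℝ, AnalyticOnNhd ℝ γ Set.univ ∧ γ 0 = c ∧
      ∃ δ, 0 < δ ∧ ∀ y : Fin k → ℝ, ‖y‖ < δ →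
        ∀ᵐ t : ℝ, t ∈ Set.Ioo (0 : ℝ) 1 →
          y + γ t ∈ Metric.ball c r ∧ IsStronglyExtremalPoint (f (y + γ t)) := by
  set node : Fin (d + 2) → ℝ := fun j => (j : ℕ) / ((d : ℝ) + 1) with hnode
  have hnI : ∀ j, node j ∈ Set.Icc (0 : ℝ) 1 := fun j =>
    ⟨by positivity, (div_le_one (by positivity)).2 (by exact_mod_cast Fin.is_le j)⟩
  have hinj : Set.InjOn node (univ : Finset (Fin (d + 2))) := fun i _ j _ h => by
    simp only [hnode] at h
    rw [div_left_inj' (by positivity)] at h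
    exact Fin.ext (by exact_mod_cast h)
  set L : Fin (d + 2) → ℝ[X] := fun j => Lagrange.basis univ node j with hL
  obtain ⟨Λ, hΛ⟩ := (isCompact_Icc (a := (0 : ℝ)) (b := 1)).exists_bound_of_continuousOn
    (f := fun t => ∑ j, |(L j).eval t|)
    (continuous_finsetSum _ fun j _ => (L j).continuous.abs).continuousOn
  have hΛ0 : 0 ≤ Λ := (norm_nonneg _).trans (hΛ 0 ⟨le_rfl, zero_le_one⟩)
  obtain ⟨p, hp, hdet⟩ := exists_independent_points hU hf hind hc
    (ρ := r / 2 / (Λ + 1)) (by positivity)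
  set q : Fin (d + 2) → Fin k → ℝ := Fin.cons c p with hq
  set γ : ℝ → Fin k → ℝ := fun t => c + ∑ j, (L j).eval t • (q j - c) with hγ
  have hγa : AnalyticOnNhd ℝ γ Set.univ := fun t _ => analyticAt_const.add
    (Finset.analyticAt_fun_sum _ fun j _ =>
      ((AnalyticOnNhd.eval_polynomial (L j)) t trivial).smul analyticAt_const)
  have hγn : ∀ i, γ (node i) = q i := fun i => by
    have e : ∑ j, (L j).eval (node i) • (q j - c) = q i - c := by
      rw [sum_eq_single i (fun j _ hj => by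
        rw [hL, Lagrange.eval_basis_of_ne hj (mem_univ i), zero_smul]) (by simp), hL,
        Lagrange.eval_basis_self hinj (mem_univ i), one_smul]
    rw [hγ]
    simp only [e, add_sub_cancel]
  have hγ0 : γ 0 = c := by simpa [hnode, hq] using hγn 0
  have hγb : ∀ t ∈ Set.Icc (0 : ℝ) 1, ‖γ t - c‖ ≤ r / 2 := fun t ht => by
    have hqc : ∀ j, ‖q j - c‖ ≤ r / 2 / (Λ + 1) := Fin.cases (by simp [hq]; positivity)
      fun j => by simpa [hq, dist_eq_norm] using (Metric.mem_ball.1 (hp j)).le
    rw [hγ, add_sub_cancel_left]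
    refine (norm_sum_le _ _).trans ((sum_le_sum (g := fun j => |(L j).eval t| *
      (r / 2 / (Λ + 1))) fun j _ => ?_).trans
      ((sum_mul _ _ (r / 2 / (Λ + 1))).symm.le.trans ?_))
    · rw [norm_smul, Real.norm_eq_abs]
      exact mul_le_mul_of_nonneg_left (hqc j) (abs_nonneg _)
    · have h1 := (Real.le_norm_self _).trans (hΛ t ht)
      refine (mul_le_mul_of_nonneg_right (h1.trans (le_add_of_nonneg_right zero_le_one))
        (by positivity)).trans_eq ?_
      exact mul_div_cancel₀ _ (by positivity)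
  -- the curve stays nonplanar under small translations
  have hcont : ContinuousAt (fun y : Fin k → ℝ =>
      (Matrix.of fun j => (Fin.cons 1 (f (y + p j)) : Fin (d + 1) → ℝ)).det) 0 := by
    refine continuous_id.matrix_det.continuousAt.comp (continuousAt_pi.2 fun i =>
      continuousAt_pi.2 fun l => ?_)
    refine Fin.cases ?_ (fun l => ?_) l
    · simpa using continuousAt_const
    · simp only [Matrix.of_apply, Fin.cons_succ]
      have hpU : p i ∈ U := hball (Metric.ball_subset_ball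
        ((div_le_self (by positivity) (by linarith)).trans (by linarith)) (hp i))
      refine ((continuous_apply l).continuousAt.comp ?_)
      exact ((hf _ hpU).continuousAt).comp_of_eq (continuous_add_const _).continuousAt (zero_add _)
  obtain ⟨δ, hδ, hne⟩ := Metric.eventually_nhds_iff.1
    (hcont.eventually_ne (by simpa using hdet))
  refine ⟨γ, hγa, hγ0, min δ (r / 2), lt_min hδ (half_pos hr), fun y hy => ?_⟩
  have hy2 : ∀ t ∈ Set.Icc (0 : ℝ) 1, y + γ t ∈ Metric.ball c r := fun t ht => by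
    rw [Metric.mem_ball, dist_eq_norm, add_sub_assoc]
    refine lt_of_le_of_lt (norm_add_le _ _) ?_
    linarith [hγb t ht, hy.trans_le (min_le_right δ (r / 2))]
  set h : ℝ → Fin d → ℝ := fun t => f (y + γ t) with hh
  have hha : AnalyticOnNhd ℝ h (Set.Icc 0 1) := fun t ht =>
    (hf _ (hball (hy2 t ht))).comp (f := fun t => y + γ t) (analyticAt_const.add (hγa t trivial))
  have hhind : ∀ (a : Fin d → ℝ) (z : ℝ),
      (∀ t ∈ Set.Icc (0 : ℝ) 1, ∑ i, a i * h t i = z) → a = 0 := by
    intro a z haz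
    have hMne := hne (y := y) (by simpa using hy.trans_le (min_le_left δ (r / 2)))
    set v : Fin (d + 1) → ℝ := Fin.cons (-z) a with hv
    have hv0 : v = 0 := by
      by_contra hv0
      refine hMne (Matrix.exists_mulVec_eq_zero_iff.1 ⟨v, hv0, funext fun j => ?_⟩)
      have hj := haz _ (hnI j.succ)
      simp only [hh, hγn, hq, Fin.cons_succ] at hj
      simp only [Matrix.mulVec, dotProduct, Matrix.of_apply, hv, Fin.sum_univ_succ, Fin.cons_zero,
        Fin.cons_succ, Pi.zero_apply, one_mul]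
      rw [sum_congr rfl fun i _ => mul_comm (f (y + p j) i) (a i), hj]
      ring
    funext i
    simpa [hv] using congrFun hv0 i.succ
  filter_upwards [ae_mul_of_nondegenerate h] with t ht htI
  exact ⟨hy2 t (Set.Ioo_subset_Icc_self htI),
    ht (isNondegenerateAt_of_analytic isPreconnected_Icc hha hhind (Set.Ioo_subset_Icc_self htI))⟩

open Classical in
/-- **Analytic submanifolds in no affine hyperplane are strongly extremal.** -/
theorem ae_analytic_manifold {f : (Fin k → ℝ) → Fin d → ℝ} {U : Set (Fin k → ℝ)}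
    (hUo : IsOpen U) (hU : IsPreconnected U) (hf : AnalyticOnNhd ℝ f U)
    (hind : ∀ (a : Fin d → ℝ) (z : ℝ), (∀ x ∈ U, ∑ i, a i * f x i = z) → a = 0) :
    ∀ᵐ x, x ∈ U → IsStronglyExtremalPoint (f x) := by
  refine ae_iff.2 (measure_null_of_locally_null _ fun c hc => ?_)
  obtain ⟨hcU, -⟩ : c ∈ U ∧ ¬IsStronglyExtremalPoint (f c) := by simpa using hc
  obtain ⟨r, hr, hball⟩ := Metric.isOpen_iff.1 hUo c hcU
  obtain ⟨γ, hγa, hγ0, δ, hδ, hcurve⟩ := exists_curve hU hf hind hcU hr hball
  set g : (Fin k → ℝ) → Fin d → ℝ := (Metric.ball c r).piecewise f 0 with hg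
  have hgm : Measurable g := (hf.continuousOn.mono hball).measurable_piecewise
    continuousOn_const measurableSet_ball
  have hgeq : ∀ x ∈ Metric.ball c r, g x = f x := fun x hx => Set.piecewise_eq_of_mem _ _ _ hx
  have hγc : Continuous γ := continuousOn_univ.1 hγa.continuousOn
  have hmeas : MeasurableSet {z : (Fin k → ℝ) × ℝ | ‖z.1‖ < δ → z.2 ∈ Set.Ioo (0 : ℝ) 1 →
      IsStronglyExtremalPoint (g (z.1 + γ z.2))} := by
    refine MeasurableSet.imp ((isOpen_lt (by fun_prop) continuous_const).measurableSet) ?_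
    refine MeasurableSet.imp (measurableSet_Ioo.preimage measurable_snd) ?_
    exact (hgm.comp (Continuous.measurable (by fun_prop))) measurableSet_isStronglyExtremalPoint
  have h1 : ∀ᵐ y : Fin k → ℝ, ∀ᵐ t : ℝ, ‖y‖ < δ → t ∈ Set.Ioo (0 : ℝ) 1 →
      IsStronglyExtremalPoint (g (y + γ t)) := Eventually.of_forall fun y => by
    by_cases hy : ‖y‖ < δ
    · filter_upwards [hcurve y hy] with t ht _ htI
      rw [hgeq _ (ht htI).1]
      exact (ht htI).2
    · exact Eventually.of_forall fun t h => absurd h hy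
  have h2 := (Measure.ae_ae_comm hmeas).1 h1
  -- choose a time at which the curve is near the centre
  obtain ⟨τ, hτ, hτγ⟩ := Metric.continuousAt_iff.1 hγc.continuousAt (δ / 2) (half_pos hδ)
  obtain ⟨t, ⟨ht0, htτ⟩, htgood⟩ : ∃ t ∈ Set.Ioo (0 : ℝ) (min τ 1),
      ∀ᵐ y : Fin k → ℝ, ‖y‖ < δ → t ∈ Set.Ioo (0 : ℝ) 1 →
        IsStronglyExtremalPoint (g (y + γ t)) := by
    by_contra! hno
    have h3 := measure_mono_null (t := _) (fun t ht => ?_) (ae_iff.1 h2) (s := Set.Ioo 0 (min τ 1))
    · rw [Real.volume_Ioo, ENNReal.ofReal_eq_zero] at h3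
      linarith [lt_min hτ one_pos]
    · exact fun h => hno t ht (h.mono fun x hx hb => hb.2.2 (hx hb.1 hb.2.1))
  have hgc : ‖γ t - c‖ < δ / 2 := by
    have := hτγ (x := t) (by
      rw [Real.dist_eq, sub_zero, abs_of_pos ht0]
      exact htτ.trans_le (min_le_left _ _))
    rwa [hγ0, dist_eq_norm] at this
  set r' := min (δ / 2) r with hr'
  refine ⟨Metric.ball c r' ∩ {x | ¬(x ∈ U → IsStronglyExtremalPoint (f x))},
    inter_mem (mem_nhdsWithin_of_mem_nhds (Metric.ball_mem_nhds c (lt_min (half_pos hδ) hr)))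
      self_mem_nhdsWithin, ?_⟩
  have h4 := (measurePreserving_sub_right (volume : Measure (Fin k → ℝ))
    (γ t)).quasiMeasurePreserving.ae htgood
  refine measure_mono_null ?_ (ae_iff.1 h4)
  rintro x ⟨hxball, hxbad⟩ hgood
  have hxr : x ∈ Metric.ball c r := Metric.ball_subset_ball (min_le_right _ _) hxball
  have hnorm : ‖x - γ t‖ < δ := by
    have h5 : ‖x - c‖ < δ / 2 := by
      rw [← dist_eq_norm]
      exact (Metric.mem_ball.1 hxball).trans_le (min_le_left _ _)
    linarith [norm_sub_le_norm_sub_add_norm_sub x c (γ t), norm_sub_rev c (γ t)]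
  have := hgood hnorm ⟨ht0, htτ.trans_le (min_le_right _ _)⟩
  rw [sub_add_cancel, hgeq x hxr] at this
  exact hxbad fun _ => this

end FA.Nondivergence
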