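import Fermat.Agent.Nondivergence.Plucker
import Fermat.Agent.Transference.Exponents
import Mathlib.MeasureTheory.OuterMeasure.BorelCantelli

/-!
# Extremal curves

A curve `f` in `ℝ ^ d` whose combinations `c 0 + ∑ c i f i` are uniformly good and uniformly
large on an interval gives lattices `g τ u (f x) ℤ ^ (d + 1)` without very short vectors for all
`τ ≥ 0`, so almost none of its points are very well approximable, even multiplicatively.
-/

set_option autoImplicit false

noncomputable section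

open Finset Matrix MeasureTheory Filter
open scoped ENNReal Topology

namespace FA.Nondivergence

open FA.Transference

variable {d k : ℕ}

/-- The combinations of `1` and the coordinates of `f` are uniformly good and large on
`[a, b]`. -/
def IsTame (f : ℝ → Fin d → ℝ) (a b : ℝ) : Prop :=
  Continuous f ∧ ∃ C α κ : ℝ, 0 ≤ C ∧ 0 < α ∧ 0 < κ ∧ ∀ c : Fin (d + 1) → ℝ,
    IsGood C α a b (fun x => ∑ j, c j * (Fin.cons 1 (f x) : Fin (d + 1) → ℝ) j) ∧
      ∃ y ∈ Set.Icc a b, κ * ‖c‖ ≤ |∑ j, c j * (Fin.cons 1 (f y) : Fin (d + 1) → ℝ) j|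

/-- The matrix `g τ * u (f x)`, with `g τ = diag (exp (∑ τ i), exp (-τ 1), …, exp (-τ d))`. -/
def curveMatrix (f : ℝ → Fin d → ℝ) (τ : Fin d → ℝ) (x : ℝ) :
    Matrix (Fin (d + 1)) (Fin (d + 1)) ℝ :=
  of (Fin.cons (Real.exp (∑ i, τ i) • (Fin.cons 1 (f x) : Fin (d + 1) → ℝ))
    fun i => Pi.single i.succ (Real.exp (-τ i)))

/-- The weight of a row of `g τ` below the first. -/
def rowWeight (τ : Fin d → ℝ) (i : Fin (d + 1)) : ℝ :=
  Real.exp (-(Fin.cons 0 τ : Fin (d + 1) → ℝ) i)

theorem curveMatrix_zero (f : ℝ → Fin d → ℝ) (τ : Fin d → ℝ) (x : ℝ) (j : Fin (d + 1)) :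
    curveMatrix f τ x 0 j = Real.exp (∑ i, τ i) * (Fin.cons 1 (f x) : Fin (d + 1) → ℝ) j := by
  simp [curveMatrix]

theorem curveMatrix_ne_zero (f : ℝ → Fin d → ℝ) (τ : Fin d → ℝ) (x : ℝ) {i : Fin (d + 1)}
    (hi : i ≠ 0)
    (j : Fin (d + 1)) : curveMatrix f τ x i j = if j = i then rowWeight τ i else 0 := by
  obtain ⟨i, rfl⟩ := Fin.exists_succ_eq.2 hi
  simp [curveMatrix, rowWeight, Pi.single_apply]

theorem det_curveMatrix (f : ℝ → Fin d → ℝ) (τ : Fin d → ℝ) (x : ℝ) :
    (curveMatrix f τ x).det = 1 := by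
  have hsub : (curveMatrix f τ x).submatrix (Fin.succAbove 0) Fin.succ =
      Matrix.diagonal fun i => Real.exp (-τ i) := by
    ext i j
    simp [curveMatrix, Matrix.diagonal_apply, Pi.single_apply, eq_comm]
  rw [det_succ_column_zero, sum_eq_single 0 ?_ (by simp), hsub, det_diagonal, ← Real.exp_sum,
    Fin.val_zero, pow_zero, one_mul, curveMatrix_zero, Fin.cons_zero, mul_one, ← Real.exp_add,
    sum_neg_distrib, add_neg_cancel, Real.exp_zero]
  intro i _ hi
  rw [curveMatrix_ne_zero f τ x hi, if_neg hi.symm]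
  simp

/-- The coefficients of the minor on `I` as a combination of `1` and the coordinates. -/
def minorCoeff (τ : Fin d → ℝ) (v : Fin k → Fin (d + 1) → ℤ) (I : Fin k → Fin (d + 1)) :
    Fin (d + 1) → ℝ :=
  if h : ∃ b, I b = 0 then fun j =>
    (Real.exp (∑ i, τ i) * ∏ b ∈ univ.erase h.choose, rowWeight τ (I b)) *
      (intMinor v (Function.update I h.choose j) : ℝ)
  else Pi.single 0 ((∏ b, rowWeight τ (I b)) * (intMinor v I : ℝ))

theorem intMinor_eq_zero {n : ℕ} {v : Fin k → Fin n → ℤ} {I : Fin k → Fin n}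
    (hI : ¬Function.Injective I) : intMinor v I = 0 := by
  simp only [Function.Injective, not_forall] at hI
  obtain ⟨a, b, hab, hne⟩ := hI
  exact det_zero_of_column_eq hne fun i => by simp [hab]

theorem minor_curveMatrix (f : ℝ → Fin d → ℝ) (τ : Fin d → ℝ) (x : ℝ) (v : Fin k → Fin (d + 1) → ℤ)
    {I : Fin k → Fin (d + 1)} (hI : Function.Injective I) :
    minor (curveMatrix f τ x) v I =
      ∑ j, minorCoeff τ v I j * (Fin.cons 1 (f x) : Fin (d + 1) → ℝ) j := by
  classical
  rw [minor_eq_sum, minorCoeff]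
  split_ifs with h
  · set b₀ := h.choose with hb₀
    have hb : I b₀ = 0 := h.choose_spec
    have hother : ∀ b, b ≠ b₀ → I b ≠ 0 := fun b hne h0 => hne (hI (h0.trans hb.symm))
    symm
    refine sum_bij_ne_zero (fun j _ _ => Function.update I b₀ j) (fun _ _ _ => mem_univ _)
      (fun i _ _ j _ _ h => by simpa using congrFun h b₀) (fun J _ hJ => ?_) fun j _ _ => ?_
    · have hJb : ∀ b, b ≠ b₀ → J b = I b := fun b hb' => by
        by_contra hne
        refine hJ (mul_eq_zero_of_left (prod_eq_zero (mem_univ b) ?_) _)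
        rw [curveMatrix_ne_zero f τ x (hother b hb'), if_neg hne]
      have e : Function.update I b₀ (J b₀) = J := funext fun b => by
        rcases eq_or_ne b b₀ with rfl | hne
        · simp
        · rw [Function.update_of_ne hne, hJb b hne]
      refine ⟨J b₀, mem_univ _, fun h0 => hJ ?_, e⟩
      have hprod : ∏ b, curveMatrix f τ x (I b) (J b) =
          Real.exp (∑ i, τ i) * (Fin.cons 1 (f x) : Fin (d + 1) → ℝ) (J b₀) *
            ∏ b ∈ univ.erase b₀, curveMatrix f τ x (I b) (J b) := by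
        rw [← mul_prod_erase univ _ (mem_univ b₀), hb, curveMatrix_zero]
      simp only [e] at h0
      rcases mul_eq_zero.1 h0 with h1 | h1
      · rcases mul_eq_zero.1 h1 with h2 | h2
        · exact absurd h2 (mul_ne_zero (Real.exp_ne_zero _)
            (prod_ne_zero_iff.2 fun _ _ => Real.exp_ne_zero _))
        · simp [h2]
      · rw [hprod, h1]
        ring
    · have hprod : ∏ b, curveMatrix f τ x (I b) (Function.update I b₀ j b) =
          Real.exp (∑ i, τ i) * (Fin.cons 1 (f x) : Fin (d + 1) → ℝ) j *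
            ∏ b ∈ univ.erase b₀, rowWeight τ (I b) := by
        rw [← mul_prod_erase univ _ (mem_univ b₀), hb, curveMatrix_zero, Function.update_self,
          prod_congr rfl fun b hb' => by
            rw [Function.update_of_ne (ne_of_mem_erase hb'),
              curveMatrix_ne_zero f τ x (hother b (ne_of_mem_erase hb')), if_pos rfl]]
      rw [hprod]
      ring
  · push Not at h
    have hzero : ∀ J, J ≠ I → ∏ b, curveMatrix f τ x (I b) (J b) = 0 := fun J hJ => by
      obtain ⟨b, hb⟩ := Function.ne_iff.1 hJ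
      exact prod_eq_zero (mem_univ b) (by rw [curveMatrix_ne_zero f τ x (h b), if_neg hb])
    rw [sum_eq_single I (fun J _ hJ => mul_eq_zero_of_left (hzero J hJ) _) (by simp),
      sum_eq_single 0 (fun j _ hj => by simp [hj]) (by simp), Pi.single_eq_same, Fin.cons_zero,
      mul_one, prod_congr rfl fun b _ => by rw [curveMatrix_ne_zero f τ x (h b), if_pos rfl]]

theorem continuous_plucker {f : ℝ → Fin d → ℝ} (hf : Continuous f) (τ : Fin d → ℝ)
    (v : Fin k → Fin (d + 1) → ℤ) : Continuous fun x => plucker (curveMatrix f τ x) v := by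
  refine (continuous_pi fun I => ?_).norm
  simp only [minor_eq_sum]
  refine continuous_finsetSum _ fun J _ => Continuous.mul (continuous_finsetProd _ fun b _ => ?_)
    continuous_const
  rcases eq_or_ne (I b) 0 with h | h
  · simp only [h, curveMatrix_zero]
    refine continuous_const.mul ?_
    refine Fin.cases ?_ (fun i => ?_) (J b)
    · simpa using continuous_const
    · simp only [Fin.cons_succ]
      exact (continuous_apply i).comp hf
  · simp only [curveMatrix_ne_zero f τ _ h]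
    exact continuous_const

theorem isGood_plucker {f : ℝ → Fin d → ℝ} {a b C α : ℝ}
    (h : ∀ c : Fin (d + 1) → ℝ,
      IsGood C α a b (fun x => ∑ j, c j * (Fin.cons 1 (f x) : Fin (d + 1) → ℝ) j))
    (τ : Fin d → ℝ) (v : Fin k → Fin (d + 1) → ℤ) :
    IsGood C α a b fun x => plucker (curveMatrix f τ x) v := by
  intro l r hl hlr hr y hy ε hε hne
  have : Nonempty (Fin k → Fin (d + 1)) := ⟨fun _ => 0⟩
  obtain ⟨I, -, hI⟩ :=
    exists_max_image univ (fun I => |minor (curveMatrix f τ y) v I|) univ_nonempty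
  have heq : plucker (curveMatrix f τ y) v = |minor (curveMatrix f τ y) v I| :=
    le_antisymm ((pi_norm_le_iff_of_nonneg (abs_nonneg _)).2 fun J => by
      rw [Real.norm_eq_abs]; exact hI J (mem_univ J)) (abs_minor_le _ _ _)
  simp only [heq] at hne
  have hIinj : Function.Injective I := by
    by_contra hni
    simp only [Function.Injective, not_forall] at hni
    obtain ⟨p, q, hpq, hne'⟩ := hni
    refine hne ?_
    rw [minor, det_zero_of_column_eq hne' fun i => by simp [hpq], abs_zero]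
  have hg := h (minorCoeff τ v I) l r hl hlr hr y hy ε hε
  simp only [← minor_curveMatrix f τ _ v hIinj] at hg
  refine le_trans ?_ ((hg fun e => hne (by rw [e, abs_zero])).trans_eq
    (by simp only [heq, abs_abs]))
  refine measure_mono ?_
  rintro z ⟨hz1, hz2⟩
  exact ⟨hz1, (abs_minor_le _ _ _).trans_lt ((le_abs_self _).trans_lt hz2)⟩

theorem exists_le_plucker {f : ℝ → Fin d → ℝ} {a b κ : ℝ} (hκ : 0 < κ)
    (h : ∀ c : Fin (d + 1) → ℝ, ∃ y ∈ Set.Icc a b,
      κ * ‖c‖ ≤ |∑ j, c j * (Fin.cons 1 (f y) : Fin (d + 1) → ℝ) j|)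
    {τ : Fin d → ℝ} (hτ : ∀ i, 0 ≤ τ i) {v : Fin k → Fin (d + 1) → ℤ} (hk : 0 < k) (hv : Indep v) :
    ∃ y ∈ Set.Icc a b, κ ≤ plucker (curveMatrix f τ y) v := by
  classical
  obtain ⟨I, hI⟩ := exists_intMinor_ne_zero hv
  have hinj : Function.Injective I := by
    by_contra hni
    exact hI (intMinor_eq_zero hni)
  -- a minor through the first coordinate with a coefficient of size at least one
  obtain ⟨I', hI', j, hj⟩ : ∃ I' : Fin k → Fin (d + 1), Function.Injective I' ∧
      ∃ j, 1 ≤ |minorCoeff τ v I' j| := by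
    have hexp : ∀ (I' : Fin k → Fin (d + 1)) (b₀ : Fin k), Function.Injective I' →
        1 ≤ Real.exp (∑ i, τ i) * ∏ b ∈ univ.erase b₀, rowWeight τ (I' b) := by
      intro I' b₀ hI'
      simp only [rowWeight, ← Real.exp_sum, ← Real.exp_add, sum_neg_distrib]
      refine Real.one_le_exp (sub_nonneg.2 ?_)
      rw [← sum_image (f := (Fin.cons 0 τ : Fin (d + 1) → ℝ)) hI'.injOn]
      refine (sum_le_sum_of_subset_of_nonneg (subset_univ _) fun i _ _ => ?_).trans_eq
        (by simp [Fin.sum_univ_succ])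
      exact Fin.cases le_rfl (fun i => hτ i) i
    have hmain : ∀ I' : Fin k → Fin (d + 1), Function.Injective I' → ∀ h : ∃ b, I' b = 0, ∀ j,
        Function.update I' h.choose j = I → 1 ≤ |minorCoeff τ v I' j| := by
      intro I' hinj' h j e
      rw [minorCoeff, dif_pos h, e, abs_mul]
      exact one_le_mul_of_one_le_of_one_le ((hexp I' _ hinj').trans (le_abs_self _))
        (by exact_mod_cast Int.one_le_abs hI)
    by_cases h : ∃ b, I b = 0
    · refine ⟨I, hinj, 0, hmain I hinj h 0 ?_⟩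
      funext b
      rcases eq_or_ne b h.choose with rfl | hne
      · rw [Function.update_self, h.choose_spec]
      · rw [Function.update_of_ne hne]
    · push Not at h
      set b₀ : Fin k := ⟨0, hk⟩
      set I' := Function.update I b₀ 0 with hI'
      have hex : ∃ b, I' b = 0 := ⟨b₀, by simp [hI']⟩
      have hch : hex.choose = b₀ := by
        by_contra hne
        have := hex.choose_spec
        simp only [hI', Function.update_of_ne hne] at this
        exact h _ this
      have hinj' : Function.Injective I' := fun p q hpq => by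
        simp only [hI', Function.update_apply] at hpq
        split_ifs at hpq with h1 h2 h2
        · exact h1.trans h2.symm
        · exact absurd hpq.symm (h q)
        · exact absurd hpq (h p)
        · exact hinj hpq
      refine ⟨I', hinj', I b₀, hmain I' hinj' hex (I b₀) ?_⟩
      rw [hch, hI', Function.update_idem, Function.update_eq_self]
  obtain ⟨y, hy, hle⟩ := h (minorCoeff τ v I')
  refine ⟨y, hy, le_trans ?_ (abs_minor_le _ _ I')⟩
  rw [minor_curveMatrix f τ y v hI']
  refine le_trans ?_ hle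
  exact le_mul_of_one_le_right hκ.le (hj.trans (by
    rw [← Real.norm_eq_abs]; exact norm_le_pi_norm _ j))

/-- **Quantitative nondivergence** along a tame curve. -/
theorem exists_measure_short_le {f : ℝ → Fin d → ℝ} {a b : ℝ} (hab : a < b)
    (h : IsTame f a b) :
    ∃ K α ρ : ℝ, 0 < K ∧ 0 < α ∧ 0 < ρ ∧ ∀ (τ : Fin d → ℝ) (ε : ℝ),
      (∀ i, 0 ≤ τ i) → 0 < ε →
      volume {x ∈ Set.Ioo a b | ∃ w : Fin (d + 1) → ℤ, w ≠ 0 ∧
        ‖curveMatrix f τ x *ᵥ toR w‖ < ε} ≤ ENNReal.ofReal (K * (ε / ρ) ^ α) := by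
  obtain ⟨hf, C, α, κ, hC, hα, hκ, hc⟩ := h
  set ρ : ℝ := min κ (1 / (d + 1)) with hρdef
  have hρ : 0 < ρ := lt_min hκ (by positivity)
  set K : ℝ := max (nondivConst C (d + 1)) 1 * (b - a) with hK
  refine ⟨K, α, ρ, mul_pos (lt_max_of_lt_right one_pos) (sub_pos.2 hab), hα, hρ,
    fun τ ε hτ hε => ?_⟩
  rcases le_or_gt ε ρ with hle | hgt
  · have hρn : ((d + 1 : ℕ) : ℝ) * ρ ≤ 1 := by
      have := min_le_right κ (1 / ((d : ℝ) + 1))
      rw [← hρdef, le_div_iff₀ (by positivity)] at this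
      push_cast
      linarith
    have hm := measure_not_marked_le (ι := RatSubspace (d + 1)) hC hε hle hα.le
      (fun S y => RatSubspace.norm (curveMatrix f τ y) S) (d + 1) Set.univ a b hab
      (fun F _ hF => card_chain_le F hF)
      (fun S _ => ⟨continuous_plucker hf τ S.rep, fun y => norm_nonneg _,
        isGood_plucker (fun c => (hc c).1) τ S.rep,
        (exists_le_plucker hκ (fun c => (hc c).2) hτ S.rank_pos S.indep_rep).imp fun y hy =>
          ⟨hy.1, (min_le_left _ _).trans hy.2⟩⟩)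
      (fun x _ => (finite_norm_lt (Matrix.nonsing_inv_mul _
        (by rw [det_curveMatrix]; exact isUnit_one)) ρ).subset fun S hS => hS.2)
    refine (measure_mono ?_).trans (hm.trans (ENNReal.ofReal_le_ofReal ?_))
    · rintro x ⟨hx, w, hw, hlt⟩
      exact ⟨hx, fun hmk => absurd hlt
        (not_lt.2 (le_norm_of_isMarked hε hle hρn (fun y => curveMatrix f τ y) hmk hw))⟩
    · rw [hK, mul_assoc, mul_assoc, mul_comm (b - a)]
      exact mul_le_mul_of_nonneg_right (le_max_left _ _)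
        (mul_nonneg (by positivity) (sub_nonneg.2 hab.le))
  · refine (measure_mono fun x hx => hx.1).trans ?_
    rw [Real.volume_Ioo]
    refine ENNReal.ofReal_le_ofReal ?_
    rw [hK, mul_right_comm]
    exact le_mul_of_one_le_left (sub_nonneg.2 hab.le) (one_le_mul_of_one_le_of_one_le
      (le_max_right _ _) (Real.one_le_rpow ((one_le_div hρ).2 hgt.le) hα.le))

theorem formSet_anti {x : Fin d → ℝ} {w w' : ℝ} (h : w ≤ w') :
    formSet x w' ⊆ formSet x w := by
  rintro m ⟨hm, n, hn⟩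
  exact ⟨hm, n, hn.trans
    (Real.rpow_le_rpow_of_exponent_le (one_le_norm_intVector hm) (neg_le_neg h))⟩

theorem norm_curveMatrix_le (f : ℝ → Fin d → ℝ) (τ : Fin d → ℝ) (x B : ℝ) (w : Fin (d + 1) → ℤ)
    (h0 : Real.exp (∑ i, τ i) * |(w 0 : ℝ) + ∑ i, (w i.succ : ℝ) * f x i| ≤ B)
    (h1 : ∀ i : Fin d, Real.exp (-τ i) * |(w i.succ : ℝ)| ≤ B) :
    ‖curveMatrix f τ x *ᵥ toR w‖ ≤ B := by
  refine (pi_norm_le_iff_of_nonneg ((by positivity : (0 : ℝ) ≤ _).trans h0)).2 ?_
  refine Fin.cases ?_ fun i => ?_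
  · have e : (curveMatrix f τ x *ᵥ toR w) 0 =
        Real.exp (∑ i, τ i) * ((w 0 : ℝ) + ∑ i, (w i.succ : ℝ) * f x i) := by
      simp only [mulVec, dotProduct, toR, Fin.sum_univ_succ, curveMatrix_zero, mul_add, mul_sum,
        Fin.cons_zero, Fin.cons_succ, mul_one]
      exact congrArg _ (sum_congr rfl fun i _ => by ring)
    rw [Real.norm_eq_abs, e, abs_mul, Real.abs_exp]
    exact h0
  · have e : (curveMatrix f τ x *ᵥ toR w) i.succ = Real.exp (-τ i) * (w i.succ : ℝ) := by
      simp [mulVec, dotProduct, toR, rowWeight, curveMatrix_ne_zero f τ x (Fin.succ_ne_zero i)]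
    rw [Real.norm_eq_abs, e, abs_mul, Real.abs_exp]
    exact h1 i

/-- The product of the `max 1 |m i|`. -/
def prodPos (m : Fin d → ℤ) : ℝ := ∏ i, max 1 |(m i : ℝ)|

/-- The nonzero `m` with `|m · x + n| ≤ prodPos m ^ (-w)` for some integer `n`. -/
def mulSet (x : Fin d → ℝ) (w : ℝ) : Set (Fin d → ℤ) :=
  {m | m ≠ 0 ∧ ∃ n : ℤ, |∑ i, (m i : ℝ) * x i + n| ≤ prodPos m ^ (-w)}

theorem one_le_prodPos (m : Fin d → ℤ) : 1 ≤ prodPos m :=
  one_le_prod fun _ _ => le_max_left _ _

theorem norm_le_prodPos (m : Fin d → ℤ) : ‖m‖ ≤ prodPos m := by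
  refine (pi_norm_le_iff_of_nonneg (zero_le_one.trans (one_le_prodPos m))).2 fun i => ?_
  rw [Int.norm_eq_abs, prodPos, ← mul_prod_erase univ _ (mem_univ i)]
  exact (le_max_right 1 _).trans
    (le_mul_of_one_le_right (by positivity) (one_le_prod fun _ _ => le_max_left _ _))

theorem prodPos_le_pow {m : Fin d → ℤ} (hm : m ≠ 0) : prodPos m ≤ ‖m‖ ^ d := by
  refine (prod_le_prod (fun _ _ => by positivity) fun i _ => ?_).trans_eq
    (by rw [prod_const, card_univ, Fintype.card_fin])
  refine max_le (one_le_norm_intVector hm) ?_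
  rw [← Int.norm_eq_abs]
  exact norm_le_pi_norm m i

theorem mulSet_anti {x : Fin d → ℝ} {w w' : ℝ} (h : w ≤ w') : mulSet x w' ⊆ mulSet x w := by
  rintro m ⟨hm, n, hn⟩
  exact ⟨hm, n, hn.trans
    (Real.rpow_le_rpow_of_exponent_le (one_le_prodPos m) (neg_le_neg h))⟩

theorem formSet_subset_mulSet (hd : 0 < d) {x : Fin d → ℝ} {w : ℝ} (hw : 0 ≤ w) :
    formSet x w ⊆ mulSet x (w / d) := by
  rintro m ⟨hm, n, hn⟩
  refine ⟨hm, n, hn.trans ?_⟩
  have h1 : (0 : ℝ) ≤ ‖m‖ := norm_nonneg _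
  calc ‖m‖ ^ (-w) = (‖m‖ ^ d) ^ (-(w / d)) := by
        rw [← Real.rpow_natCast_mul h1, mul_neg, mul_div_cancel₀ _ (Nat.cast_ne_zero.2 hd.ne')]
    _ ≤ prodPos m ^ (-(w / d)) :=
        Real.rpow_le_rpow_of_nonpos (zero_lt_one.trans_le (one_le_prodPos m)) (prodPos_le_pow hm)
          (neg_nonpos.2 (by positivity))

theorem ae_mulSet_finite {f : ℝ → Fin d → ℝ} {a b : ℝ} (hab : a < b) (h : IsTame f a b) {w : ℝ}
    (hw : 1 < w) : ∀ᵐ x : ℝ, x ∈ Set.Ioo a b → (mulSet (f x) w).Finite := by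
  obtain ⟨K, α, ρ, hK, hα, hρ, hb⟩ := exists_measure_short_le hab h
  set g : ℝ := (w - 1) / (d + 1) with hgdef
  have hg : 0 < g := div_pos (by linarith) (by positivity)
  have hgw : g * ((d : ℝ) + 1) = w - 1 := div_mul_cancel₀ _ (by positivity)
  set γ : ℝ := g / (1 + d * g) with hγdef
  have hγ : 0 < γ := by positivity
  set M₀ : ℝ := Real.exp (d + γ * d) + 1 with hM₀
  set C₀ : ℝ := K * (M₀ / ρ) ^ α with hC₀
  set q : ℝ := Real.exp (-(γ * α)) with hq
  set E : (Fin d → ℕ) → Set ℝ := fun τ => {x ∈ Set.Ioo a b | ∃ v : Fin (d + 1) → ℤ, v ≠ 0 ∧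
    ‖curveMatrix f (fun i => (τ i : ℝ)) x *ᵥ toR v‖ < M₀ * Real.exp (-(γ * ∑ i, (τ i : ℝ)))}
  set G : ℕ → Set ℝ := fun t => {x | ∃ τ : Fin d → ℕ, ∑ i, τ i = t ∧ x ∈ E τ} with hG
  have hGle : ∀ t : ℕ, volume (G t) ≤ ENNReal.ofReal (((t : ℝ) + 1) ^ d * (C₀ * q ^ t)) := by
    intro t
    have hsub : G t ⊆
        ⋃ τ ∈ (Fintype.piFinset fun _ : Fin d => range (t + 1)).filter fun τ => ∑ i, τ i = t,
          E τ := by
      rintro x ⟨τ, hτ, hx⟩
      refine Set.mem_biUnion (mem_filter.2 ⟨Fintype.mem_piFinset.2 fun i => ?_, hτ⟩) hx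
      rw [mem_range, Nat.lt_succ_iff, ← hτ]
      exact single_le_sum (fun _ _ => Nat.zero_le _) (mem_univ i)
    refine (measure_mono hsub).trans ((measure_biUnion_finset_le _ _).trans ?_)
    refine (sum_le_card_nsmul _ _ (ENNReal.ofReal (C₀ * q ^ t)) fun τ hτ => ?_).trans ?_
    · refine (hb _ _ (fun i => Nat.cast_nonneg _) (by positivity)).trans_eq (congrArg _ ?_)
      rw [show (∑ i, (τ i : ℝ)) = (t : ℝ) by exact_mod_cast (mem_filter.1 hτ).2, hC₀, hq,
        mul_div_right_comm, Real.mul_rpow (by positivity) (Real.exp_pos _).le, ← Real.exp_mul,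
        ← Real.exp_nat_mul, mul_assoc]
      ring_nf
    · rw [nsmul_eq_mul, ENNReal.ofReal_mul (p := ((t : ℝ) + 1) ^ d) (by positivity)]
      refine mul_le_mul' ?_ le_rfl
      rw [← ENNReal.ofReal_natCast]
      refine ENNReal.ofReal_le_ofReal (le_trans (Nat.cast_le.2 (card_filter_le _ _)) ?_)
      simp
  have hsum : ∑' t, volume (G t) ≠ ⊤ := by
    refine ne_top_of_le_ne_top ?_ (ENNReal.tsum_le_tsum hGle)
    rw [← ENNReal.ofReal_tsum_of_nonneg (fun t => by positivity)]
    · exact ENNReal.ofReal_ne_top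
    have hq1 : ‖q‖ < 1 := by
      rw [Real.norm_eq_abs, abs_of_pos (Real.exp_pos _), Real.exp_lt_one_iff]
      exact neg_neg_of_pos (mul_pos hγ hα)
    have hq0 : q ≠ 0 := (Real.exp_pos _).ne'
    have hs := (summable_nat_add_iff 1).2 (summable_pow_mul_geometric_of_norm_lt_one d hq1)
    refine ((hs.mul_left (C₀ / q))).congr fun t => ?_
    rw [Nat.cast_add, Nat.cast_one, pow_succ]
    field_simp
  filter_upwards [ae_eventually_notMem hsum] with x hx hxI
  by_contra hinf
  obtain ⟨T, hT⟩ := eventually_atTop.1 hx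
  obtain ⟨m, ⟨hm, n, hn⟩, hmR⟩ := exists_norm_gt hinf (Real.exp T)
  set L : Fin d → ℝ := fun i => Real.log (max 1 |(m i : ℝ)|) with hL
  have hL0 : ∀ i, 0 ≤ L i := fun i => Real.log_nonneg (le_max_left _ _)
  set S : ℝ := ∑ i, L i with hS
  have hS0 : 0 ≤ S := sum_nonneg fun i _ => hL0 i
  have hPS : prodPos m = Real.exp S := by
    rw [hS, Real.exp_sum]
    exact prod_congr rfl fun i _ => (Real.exp_log (by positivity)).symm
  set τ : Fin d → ℕ := fun i => ⌈L i + g * S⌉₊ with hτ
  have hlow : ∀ i, L i + g * S ≤ τ i := fun i => Nat.le_ceil _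
  have hTle : ∑ i, (τ i : ℝ) ≤ (1 + d * g) * S + d := by
    refine (sum_le_sum fun i _ => (Nat.ceil_lt_add_one
      (add_nonneg (hL0 i) (mul_nonneg hg.le hS0))).le).trans_eq ?_
    simp only [sum_add_distrib, sum_const, card_univ, Fintype.card_fin, nsmul_eq_mul, ← hS]
    ring
  have hST : S ≤ ∑ i, (τ i : ℝ) :=
    sum_le_sum fun i _ => le_trans (le_add_of_nonneg_right (mul_nonneg hg.le hS0)) (hlow i)
  have htT : T ≤ ∑ i, τ i := by
    have h1 := Real.exp_lt_exp.1 (hmR.trans_le ((norm_le_prodPos m).trans_eq hPS))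
    have h2 : (T : ℝ) ≤ ((∑ i, τ i : ℕ) : ℝ) := by rw [Nat.cast_sum]; linarith
    exact_mod_cast h2
  refine hT _ htT ⟨τ, rfl, hxI, Fin.cons n m, fun h0 => hm (funext fun i => congrFun h0 i.succ),
    lt_of_le_of_lt (norm_curveMatrix_le f _ x (Real.exp ((d : ℝ) - g * S)) _ ?_ fun i => ?_) ?_⟩
  · simp only [Fin.cons_zero, Fin.cons_succ]
    rw [add_comm]
    refine (mul_le_mul_of_nonneg_left hn (Real.exp_pos _).le).trans ?_
    rw [hPS, ← Real.exp_mul, ← Real.exp_add]
    refine Real.exp_le_exp.2 ?_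
    have : g * ((d : ℝ) + 1) * S = (w - 1) * S := by rw [hgw]
    linarith
  · simp only [Fin.cons_succ]
    have h1 : |(m i : ℝ)| ≤ Real.exp (L i) := by
      rw [hL, Real.exp_log (by positivity)]
      exact le_max_right _ _
    refine (mul_le_mul_of_nonneg_left h1 (Real.exp_pos _).le).trans ?_
    rw [← Real.exp_add]
    exact Real.exp_le_exp.2 (by linarith [hlow i, Nat.cast_nonneg (α := ℝ) d])
  · have h1 : (d : ℝ) - g * S ≤ d + γ * d + -(γ * ∑ i, (τ i : ℝ)) := by
      have h2 := mul_le_mul_of_nonneg_left hTle hγ.le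
      have h3 : γ * ((1 + (d : ℝ) * g) * S) = g * S := by
        rw [← mul_assoc, hγdef, div_mul_cancel₀ _ (by positivity)]
      linarith
    refine (Real.exp_le_exp.2 h1).trans_lt ?_
    rw [Real.exp_add, hM₀]
    exact mul_lt_mul_of_pos_right (lt_add_one _) (Real.exp_pos _)

/-- **A tame curve is strongly extremal.** -/
theorem ae_not_multiplicatively_veryWellApproximable {f : ℝ → Fin d → ℝ} {a b : ℝ}
    (hab : a < b) (h : IsTame f a b) :
    ∀ᵐ x : ℝ, x ∈ Set.Ioo a b → ∀ w : ℝ, 1 < w → (mulSet (f x) w).Finite := by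
  have hk : ∀ j : ℕ, ∀ᵐ x : ℝ, x ∈ Set.Ioo a b →
      (mulSet (f x) (1 + 1 / (j + 1))).Finite := fun j =>
    ae_mulSet_finite hab h (lt_add_of_pos_right _ (by positivity))
  filter_upwards [ae_all_iff.2 hk] with x hx hxI w hw
  obtain ⟨j, hj⟩ := exists_nat_one_div_lt (sub_pos.2 hw)
  exact (hx j hxI).subset (mulSet_anti (by linarith))

/-- **A tame curve is extremal.** -/
theorem ae_not_veryWellApproximable (hd : 0 < d) {f : ℝ → Fin d → ℝ} {a b : ℝ} (hab : a < b)
    (h : IsTame f a b) :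
    ∀ᵐ x : ℝ, x ∈ Set.Ioo a b → ∀ w : ℝ, (d : ℝ) < w → (formSet (f x) w).Finite := by
  filter_upwards [ae_not_multiplicatively_veryWellApproximable hab h] with x hx hxI w hw
  exact (hx hxI (w / d) ((one_lt_div (Nat.cast_pos.2 hd)).2 hw)).subset
    (formSet_subset_mulSet hd ((Nat.cast_nonneg d).trans hw.le))

end FA.Nondivergence
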