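import Mathlib.Analysis.SpecialFunctions.Pow.Real
import Mathlib.MeasureTheory.Measure.Lebesgue.Basic

/-!
# Marked points

The combinatorial half of the quantitative nondivergence theorem of Kleinbock and Margulis, in
one variable: given functions `ψ s` indexed by a partial order with chains of bounded length,
most points of an interval have a flag on which the `ψ s` lie in `[ε, ρ]` and off which they are
at least `ρ`.
-/

set_option autoImplicit false

noncomputable section

open MeasureTheory Set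
open scoped ENNReal

namespace FA.Nondivergence

/-- `f` is `(C, α)`-good on `[a, b]`: its sublevel sets in subintervals are small against its
size there. -/
def IsGood (C α a b : ℝ) (f : ℝ → ℝ) : Prop :=
  ∀ l r, a ≤ l → l < r → r ≤ b → ∀ y ∈ Icc l r, ∀ ε : ℝ, 0 < ε → f y ≠ 0 →
    volume {x ∈ Ioo l r | |f x| < ε} ≤ ENNReal.ofReal (C * (ε / |f y|) ^ α * (r - l))

variable {ι : Type*} [PartialOrder ι]

/-- `x` has a flag in `P` on which `ψ` lies in `[ε, ρ]`, all other comparable values `≥ ρ`. -/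
def IsMarked (P : Set ι) (ψ : ι → ℝ → ℝ) (ε ρ x : ℝ) : Prop :=
  ∃ F : Finset ι, ↑F ⊆ P ∧ (∀ s ∈ F, ∀ t ∈ F, s ≤ t ∨ t ≤ s) ∧
    (∀ s ∈ F, ε ≤ ψ s x ∧ ψ s x ≤ ρ) ∧
    ∀ s ∈ P, s ∉ F → (∀ t ∈ F, s ≤ t ∨ t ≤ s) → ρ ≤ ψ s x

/-- The elements of `P` comparable to `s`, other than `s`. -/
def neighbours (P : Set ι) (s : ι) : Set ι := {t ∈ P | t ≠ s ∧ (t ≤ s ∨ s ≤ t)}

/-- The constant for chains of length `k`. -/
def nondivConst (C : ℝ) : ℕ → ℝ
  | 0 => 0
  | k + 1 => 2 * (nondivConst C k + C)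

theorem nondivConst_nonneg {C : ℝ} (hC : 0 ≤ C) : ∀ k, 0 ≤ nondivConst C k
  | 0 => le_rfl
  | k + 1 => by
    have := nondivConst_nonneg hC k
    rw [nondivConst]
    linarith

theorem exists_component {f : ℝ → ℝ} (hf : Continuous f) {a b x ρ : ℝ} (hx : x ∈ Ioo a b)
    (hρ : f x < ρ) :
    ∃ l r, a ≤ l ∧ l < x ∧ x < r ∧ r ≤ b ∧ (∀ y ∈ Ioo l r, f y < ρ) ∧
      (ρ ≤ f l ∨ l = a) ∧ (ρ ≤ f r ∨ r = b) := by
  have hclosed : IsClosed {y | ρ ≤ f y} := isClosed_le continuous_const hf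
  obtain ⟨l, hlS, hl⟩ := ((isCompact_Icc (a := a) (b := x)).inter_right
    (hclosed.union isClosed_singleton)).exists_isGreatest
    ⟨a, ⟨le_rfl, hx.1.le⟩, Or.inr rfl⟩
  obtain ⟨r, hrS, hr⟩ := ((isCompact_Icc (a := x) (b := b)).inter_right
    (hclosed.union isClosed_singleton)).exists_isLeast
    ⟨b, ⟨hx.2.le, le_rfl⟩, Or.inr rfl⟩
  have hlx : l < x := by
    refine hlS.1.2.lt_of_ne fun h => ?_
    rcases hlS.2 with h' | h'
    · rw [mem_ofPred_eq, h] at h'
      linarith
    · rw [mem_singleton_iff, h] at h'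
      linarith [hx.1]
  have hxr : x < r := by
    refine hrS.1.1.lt_of_ne fun h => ?_
    rcases hrS.2 with h' | h'
    · rw [mem_ofPred_eq, ← h] at h'
      linarith
    · rw [mem_singleton_iff, ← h] at h'
      linarith [hx.2]
  refine ⟨l, r, hlS.1.1, hlx, hxr, hrS.1.2, fun y hy => ?_, hlS.2, hrS.2⟩
  by_contra! hge
  rcases le_total y x with h | h
  · exact absurd (hl ⟨⟨hlS.1.1.trans hy.1.le, h⟩, Or.inl hge⟩) (not_le.2 hy.1)
  · exact absurd (hr ⟨⟨h, hy.2.le.trans hrS.1.2⟩, Or.inl hge⟩) (not_le.2 hy.2)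

omit [PartialOrder ι] in
/-- Some index has a component around `x` on whose closure every index reaches `ρ`. -/
theorem exists_maximal_component {P : Set ι} {ψ : ι → ℝ → ℝ} {a b x ρ : ℝ}
    (hc : ∀ s ∈ P, Continuous (ψ s)) (hsup : ∀ s ∈ P, ∃ y ∈ Icc a b, ρ ≤ ψ s y)
    (hfin : {s ∈ P | ψ s x < ρ}.Finite) (hne : {s ∈ P | ψ s x < ρ}.Nonempty)
    (hx : x ∈ Ioo a b) :
    ∃ s ∈ P, ∃ l r, a ≤ l ∧ l < x ∧ x < r ∧ r ≤ b ∧ (∀ y ∈ Ioo l r, ψ s y < ρ) ∧
      ∀ t ∈ P, ∃ y ∈ Icc l r, ρ ≤ ψ t y := by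
  choose! L R hcomp using fun s (hs : s ∈ {s ∈ P | ψ s x < ρ}) =>
    exists_component (hc s hs.1) hx hs.2
  obtain ⟨s, hs, hmax⟩ := exists_max_image _ (fun s => R s - L s) hfin hne
  obtain ⟨hal, hlx, hxr, hrb, hlt, -, -⟩ := hcomp s hs
  refine ⟨s, hs.1, L s, R s, hal, hlx, hxr, hrb, hlt, fun t ht => ?_⟩
  by_contra! hno
  obtain ⟨hal', hlx', hxr', hrb', hlt', hl', hr'⟩ :=
    hcomp t ⟨ht, hno x ⟨hlx.le, hxr.le⟩⟩
  have hmax' := hmax t ⟨ht, hno x ⟨hlx.le, hxr.le⟩⟩
  have hL : L t < L s ∨ (L t = a ∧ L t ≤ L s) := by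
    rcases hl' with h | h
    · refine Or.inl (not_le.1 fun hle => ?_)
      exact absurd (hno _ ⟨hle, hlx'.le.trans hxr.le⟩) (not_lt.2 h)
    · exact Or.inr ⟨h, h.trans_le hal⟩
  have hR : R s < R t ∨ (R t = b ∧ R s ≤ R t) := by
    rcases hr' with h | h
    · refine Or.inl (not_le.1 fun hle => ?_)
      exact absurd (hno _ ⟨hlx.le.trans hxr'.le, hle⟩) (not_lt.2 h)
    · exact Or.inr ⟨h, hrb.trans_eq h.symm⟩
  rcases hL with h1 | ⟨h1, h1'⟩ <;> rcases hR with h2 | ⟨h2, h2'⟩ <;> try linarith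
  obtain ⟨y, hy, hρy⟩ := hsup t ht
  refine absurd hρy (not_le.2 (hno y ⟨?_, ?_⟩)) <;> linarith [hy.1, hy.2]

/-- A finite family of intervals has a subfamily with the same union covering each point at most
twice. -/
theorem exists_subcover_two {κ : Type*} (G : Finset κ) (l r : κ → ℝ) :
    ∃ G', G' ⊆ G ∧ (⋃ i ∈ G, Ioo (l i) (r i)) ⊆ (⋃ i ∈ G', Ioo (l i) (r i)) ∧
      ∀ z, (G'.filter fun i => z ∈ Ioo (l i) (r i)).card ≤ 2 := by
  classical
  have hne : (G.powerset.filter fun H : Finset κ =>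
      (⋃ i ∈ G, Ioo (l i) (r i)) ⊆ ⋃ i ∈ H, Ioo (l i) (r i)).Nonempty :=
    ⟨G, Finset.mem_filter.2 ⟨Finset.mem_powerset.2 subset_rfl, subset_rfl⟩⟩
  obtain ⟨H, hH, hmin⟩ := Finset.exists_min_image _ Finset.card hne
  rw [Finset.mem_filter, Finset.mem_powerset] at hH
  refine ⟨H, hH.1, hH.2, fun z => ?_⟩
  by_contra! h3
  obtain ⟨p, hp, hpmin⟩ := Finset.exists_min_image _ l (Finset.card_pos.1 (by omega :
    0 < (H.filter fun i => z ∈ Ioo (l i) (r i)).card))
  obtain ⟨q, hq, hqmax⟩ := Finset.exists_max_image _ r (Finset.card_pos.1 (by omega :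
    0 < (H.filter fun i => z ∈ Ioo (l i) (r i)).card))
  obtain ⟨m, hm, hmpq⟩ := Finset.exists_mem_notMem_of_card_lt_card
    (lt_of_le_of_lt (Finset.card_le_two (a := p) (b := q)) h3)
  have hmp : p ≠ m := fun h => hmpq (by simp [h])
  have hmq : q ≠ m := fun h => hmpq (by simp [h])
  have hsub : (⋃ i ∈ H, Ioo (l i) (r i)) ⊆ ⋃ i ∈ H.erase m, Ioo (l i) (r i) := by
    intro y hy
    simp only [mem_iUnion, exists_prop, Finset.mem_erase] at hy ⊢
    obtain ⟨i, hi, hyi⟩ := hy
    rcases eq_or_ne i m with rfl | hne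
    · rcases lt_or_ge y z with h | h
      · exact ⟨p, ⟨hmp, (Finset.mem_filter.1 hp).1⟩, lt_of_le_of_lt (hpmin i hm) hyi.1,
          h.trans (Finset.mem_filter.1 hp).2.2⟩
      · exact ⟨q, ⟨hmq, (Finset.mem_filter.1 hq).1⟩, (Finset.mem_filter.1 hq).2.1.trans_le h,
          hyi.2.trans_le (hqmax i hm)⟩
    · exact ⟨i, ⟨hne, hi⟩, hyi⟩
  have := hmin (H.erase m) (Finset.mem_filter.2
    ⟨Finset.mem_powerset.2 ((Finset.erase_subset _ _).trans hH.1), hH.2.trans hsub⟩)
  rw [Finset.card_erase_of_mem (Finset.mem_filter.1 hm).1] at this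
  have := Finset.card_pos.2 ⟨m, (Finset.mem_filter.1 hm).1⟩
  omega

theorem sum_length_le {κ : Type*} (G : Finset κ) (l r : κ → ℝ) {a b : ℝ}
    (hsub : ∀ i ∈ G, Ioo (l i) (r i) ⊆ Ioo a b)
    (h2 : ∀ z, (G.filter fun i => z ∈ Ioo (l i) (r i)).card ≤ 2) :
    ∑ i ∈ G, ENNReal.ofReal (r i - l i) ≤ 2 * ENNReal.ofReal (b - a) := by
  calc ∑ i ∈ G, ENNReal.ofReal (r i - l i)
      = ∫⁻ z, ∑ i ∈ G, (Ioo (l i) (r i)).indicator 1 z := by
        rw [lintegral_finsetSum _ fun i _ => measurable_one.indicator measurableSet_Ioo]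
        exact Finset.sum_congr rfl fun i _ => by
          rw [lintegral_indicator_one measurableSet_Ioo, Real.volume_Ioo]
    _ ≤ ∫⁻ z, (2 : ℝ≥0∞) * (Ioo a b).indicator 1 z := by
        refine lintegral_mono fun z => ?_
        rw [Finset.sum_congr rfl fun i _ => Set.indicator_apply _ _ z, Finset.sum_ite,
          Finset.sum_const_zero, add_zero]
        rcases (G.filter fun i => z ∈ Ioo (l i) (r i)).eq_empty_or_nonempty with h | ⟨i, hi⟩
        · rw [h, Finset.sum_empty]
          exact zero_le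
        · rw [Finset.mem_filter] at hi
          rw [indicator_of_mem (hsub i hi.1 hi.2)]
          simpa using (Nat.cast_le (α := ℝ≥0∞)).2 (h2 z)
    _ = _ := by
        rw [lintegral_const_mul _ (measurable_one.indicator measurableSet_Ioo),
          lintegral_indicator_one measurableSet_Ioo, Real.volume_Ioo]

/-- **Most points are marked.** -/
theorem measure_not_marked_le {C α ρ ε : ℝ} (hC : 0 ≤ C) (hε : 0 < ε) (hερ : ε ≤ ρ)
    (hα : 0 ≤ α) (ψ : ι → ℝ → ℝ) :
    ∀ (k : ℕ) (P : Set ι) (a b : ℝ), a < b →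
      (∀ F : Finset ι, ↑F ⊆ P → (∀ s ∈ F, ∀ t ∈ F, s ≤ t ∨ t ≤ s) → F.card ≤ k) →
      (∀ s ∈ P, Continuous (ψ s) ∧ (∀ y, 0 ≤ ψ s y) ∧ IsGood C α a b (ψ s) ∧
        ∃ y ∈ Icc a b, ρ ≤ ψ s y) →
      (∀ x ∈ Ioo a b, {s ∈ P | ψ s x < ρ}.Finite) →
      volume {x ∈ Ioo a b | ¬IsMarked P ψ ε ρ x} ≤
        ENNReal.ofReal (nondivConst C k * (ε / ρ) ^ α * (b - a)) := by
  classical
  have hρ : 0 < ρ := hε.trans_le hερ
  intro k
  induction k with
  | zero =>
    intro P a b _ hlen _ _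
    rw [show {x ∈ Ioo a b | ¬IsMarked P ψ ε ρ x} = ∅ from ?_, measure_empty]
    · exact zero_le
    · refine eq_empty_of_forall_notMem fun x hx => hx.2 ⟨∅, by simp, by simp, by simp, ?_⟩
      intro s hs _ _
      exact absurd (hlen {s} (by simpa using hs) (by simp)) (by simp)
  | succ k ih =>
    intro P a b hab hlen hψ hfin
    set U := {x ∈ Ioo a b | ¬IsMarked P ψ ε ρ x} with hU
    set K := 2 * (nondivConst C k + C) * (ε / ρ) ^ α * (b - a)
    have hK : nondivConst C (k + 1) * (ε / ρ) ^ α * (b - a) = K := by rw [nondivConst]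
    rw [hK]
    rcases U.eq_empty_or_nonempty with h | hUne
    · rw [h, measure_empty]
      exact zero_le
    have hne : ∀ x ∈ U, {s ∈ P | ψ s x < ρ}.Nonempty := by
      intro x hx
      by_contra hno
      rw [Set.not_nonempty_iff_eq_empty, Set.eq_empty_iff_forall_notMem] at hno
      exact hx.2 ⟨∅, by simp, by simp, by simp,
        fun s hs _ _ => not_lt.1 fun hlt => hno s ⟨hs, hlt⟩⟩
    have : Nonempty ι := ⟨(hne _ hUne.some_mem).some⟩
    choose! S hS L R hal hlx hxr hrb hlt hsup using fun x (hx : x ∈ U) =>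
      exists_maximal_component (fun s hs => (hψ s hs).1) (fun s hs => (hψ s hs).2.2.2)
        (hfin x hx.1) (hne x hx) hx.1
    -- inside one component
    have hone : ∀ x ∈ U, volume (U ∩ Ioo (L x) (R x)) ≤
        ENNReal.ofReal ((nondivConst C k + C) * (ε / ρ) ^ α) * ENNReal.ofReal (R x - L x) := by
      intro x hx
      have hlr : L x < R x := (hlx x hx).trans (hxr x hx)
      have hJ : Ioo (L x) (R x) ⊆ Ioo a b := Ioo_subset_Ioo (hal x hx) (hrb x hx)
      have hlen' : ∀ F : Finset ι, ↑F ⊆ neighbours P (S x) →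
          (∀ s ∈ F, ∀ t ∈ F, s ≤ t ∨ t ≤ s) → F.card ≤ k := by
        intro F hF hch
        have hnot : S x ∉ F := fun h => (hF h).2.1 rfl
        have h := hlen (insert (S x) F) (by
          rw [Finset.coe_insert]
          exact insert_subset (hS x hx) fun t ht => (hF ht).1) (by
          intro s hs t ht
          rcases Finset.mem_insert.1 hs with rfl | hs <;>
            rcases Finset.mem_insert.1 ht with rfl | ht
          · exact Or.inl le_rfl
          · exact (hF ht).2.2.symm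
          · exact (hF hs).2.2
          · exact hch s hs t ht)
        rw [Finset.card_insert_of_notMem hnot] at h
        omega
      have h1 := ih (neighbours P (S x)) (L x) (R x) hlr hlen' (fun s hs =>
        ⟨(hψ s hs.1).1, (hψ s hs.1).2.1, fun l r hl hlr' hr => (hψ s hs.1).2.2.1 l r
          ((hal x hx).trans hl) hlr' (hr.trans (hrb x hx)), hsup x hx s hs.1⟩)
        fun z hz => (hfin z (hJ hz)).subset fun s hs => ⟨hs.1.1, hs.2⟩
      have h2 : volume {z ∈ Ioo (L x) (R x) | |ψ (S x) z| < ε} ≤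
          ENNReal.ofReal (C * (ε / ρ) ^ α * (R x - L x)) := by
        obtain ⟨y, hy, hρy⟩ := hsup x hx (S x) (hS x hx)
        refine ((hψ _ (hS x hx)).2.2.1 _ _ (hal x hx) hlr (hrb x hx) y hy ε hε
          (by linarith)).trans (ENNReal.ofReal_le_ofReal ?_)
        rw [abs_of_pos (by linarith)]
        refine mul_le_mul_of_nonneg_right (mul_le_mul_of_nonneg_left ?_ hC) (by linarith)
        exact Real.rpow_le_rpow (div_nonneg hε.le (by linarith))
          (div_le_div_of_nonneg_left hε.le hρ hρy) hα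
      have hsub : U ∩ Ioo (L x) (R x) ⊆
          {z ∈ Ioo (L x) (R x) | ¬IsMarked (neighbours P (S x)) ψ ε ρ z} ∪
            {z ∈ Ioo (L x) (R x) | |ψ (S x) z| < ε} := by
        rintro z ⟨⟨-, hz⟩, hzJ⟩
        by_cases hsmall : |ψ (S x) z| < ε
        · exact Or.inr ⟨hzJ, hsmall⟩
        refine Or.inl ⟨hzJ, fun ⟨F, hF, hch, hM1, hM2⟩ => hz ?_⟩
        rw [abs_of_nonneg ((hψ _ (hS x hx)).2.1 z), not_lt] at hsmall
        refine ⟨insert (S x) F, ?_, ?_, ?_, ?_⟩
        · rw [Finset.coe_insert]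
          exact insert_subset (hS x hx) fun t ht => (hF ht).1
        · intro s hs t ht
          rcases Finset.mem_insert.1 hs with rfl | hs <;>
            rcases Finset.mem_insert.1 ht with rfl | ht
          · exact Or.inl le_rfl
          · exact (hF ht).2.2.symm
          · exact (hF hs).2.2
          · exact hch s hs t ht
        · intro s hs
          rcases Finset.mem_insert.1 hs with rfl | hs
          · exact ⟨hsmall, (hlt x hx z hzJ).le⟩
          · exact hM1 s hs
        · intro s hsP hsF hcomp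
          rw [Finset.mem_insert, not_or] at hsF
          exact hM2 s ⟨hsP, hsF.1, hcomp _ (Finset.mem_insert_self _ _)⟩ hsF.2
            fun t ht => hcomp t (Finset.mem_insert_of_mem ht)
      refine (measure_mono hsub).trans ((measure_union_le _ _).trans ((add_le_add h1 h2).trans ?_))
      rw [← ENNReal.ofReal_add, ← ENNReal.ofReal_mul]
      · exact le_of_eq (congrArg ENNReal.ofReal (by ring))
      · have := nondivConst_nonneg hC k
        positivity
      · exact mul_nonneg (mul_nonneg (nondivConst_nonneg hC k) (by positivity)) (by linarith)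
      · exact mul_nonneg (by positivity) (by linarith)
    -- countably many components cover the unmarked points
    obtain ⟨T, hTU, hT, hTeq⟩ := TopologicalSpace.isOpen_biUnion_countable U
      (fun x => Ioo (L x) (R x)) fun _ _ => isOpen_Ioo
    have hcov : U ⊆ ⋃ x ∈ T, Ioo (L x) (R x) := by
      rw [hTeq]
      exact fun x hx => mem_biUnion hx ⟨hlx x hx, hxr x hx⟩
    have hTne : T.Nonempty := by
      obtain ⟨x, hx⟩ := hUne
      obtain ⟨y, hy, -⟩ := mem_iUnion₂.1 (hcov hx)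
      exact ⟨y, hy⟩
    obtain ⟨e, he⟩ := hT.exists_eq_range hTne
    have heU : ∀ i, e i ∈ U := fun i => hTU (he ▸ mem_range_self i)
    set A : ℕ → Set ℝ := fun N => U ∩ ⋃ i ∈ Finset.range N, Ioo (L (e i)) (R (e i))
    have hmono : Monotone A := fun M N hMN => inter_subset_inter_right _
      (biUnion_subset_biUnion_left (Finset.coe_subset.2 (Finset.range_subset_range.2 hMN)))
    have hUA : U ⊆ ⋃ N, A N := fun x hx => by
      obtain ⟨y, hy, hxy⟩ := mem_iUnion₂.1 (hcov hx)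
      obtain ⟨i, rfl⟩ := (he ▸ hy : y ∈ range e)
      exact mem_iUnion.2 ⟨i + 1, hx, mem_biUnion (Finset.self_mem_range_succ i) hxy⟩
    refine (measure_mono hUA).trans ?_
    rw [hmono.measure_iUnion]
    refine iSup_le fun N => ?_
    obtain ⟨G, -, hG, hG2⟩ :=
      exists_subcover_two (Finset.range N) (fun i => L (e i)) (fun i => R (e i))
    calc volume (A N) ≤ volume (⋃ i ∈ G, U ∩ Ioo (L (e i)) (R (e i))) := by
          refine measure_mono fun z hz => ?_
          obtain ⟨i, hi, hzi⟩ := mem_iUnion₂.1 (hG hz.2)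
          exact mem_biUnion hi ⟨hz.1, hzi⟩
      _ ≤ ∑ i ∈ G, volume (U ∩ Ioo (L (e i)) (R (e i))) := measure_biUnion_finset_le _ _
      _ ≤ ∑ i ∈ G, ENNReal.ofReal ((nondivConst C k + C) * (ε / ρ) ^ α) *
          ENNReal.ofReal (R (e i) - L (e i)) := Finset.sum_le_sum fun i _ => hone _ (heU i)
      _ ≤ ENNReal.ofReal ((nondivConst C k + C) * (ε / ρ) ^ α) *
          (2 * ENNReal.ofReal (b - a)) := by
          rw [← Finset.mul_sum]
          gcongr
          exact sum_length_le G (fun i => L (e i)) (fun i => R (e i))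
            (fun i _ => Ioo_subset_Ioo (hal _ (heU i)) (hrb _ (heU i))) hG2
      _ = ENNReal.ofReal K := by
          have := nondivConst_nonneg hC k
          rw [← ENNReal.ofReal_ofNat, ← ENNReal.ofReal_mul two_pos.le,
            ← ENNReal.ofReal_mul (by positivity)]
          exact congrArg ENNReal.ofReal (by ring)

end FA.Nondivergence
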