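import Fermat.Agent.Nondivergence.Marked
import Mathlib.LinearAlgebra.Matrix.Rank

/-!
# Integral subspaces and their Plücker norms

A subspace spanned by integral vectors has a best tuple `rep`; its norm in the lattice `A ℤ ^ n`
is the largest minor. Marked points have no short vectors.
-/

set_option autoImplicit false

noncomputable section

open Finset Matrix Module

namespace FA.Nondivergence

variable {n k : ℕ}

/-- An integral vector as a real one. -/
def toR (w : Fin n → ℤ) : Fin n → ℝ := fun i => (w i : ℝ)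

/-- The minor of the image of `v` under `A` on the coordinates `I`. -/
def minor (A : Matrix (Fin n) (Fin n) ℝ) (v : Fin k → Fin n → ℤ) (I : Fin k → Fin n) : ℝ :=
  Matrix.det (of fun a b => (A *ᵥ toR (v a)) (I b))

/-- The largest minor. -/
def plucker (A : Matrix (Fin n) (Fin n) ℝ) (v : Fin k → Fin n → ℤ) : ℝ :=
  ‖fun I : Fin k → Fin n => minor A v I‖

/-- The integral minor. -/
def intMinor (v : Fin k → Fin n → ℤ) (I : Fin k → Fin n) : ℤ :=
  Matrix.det (of fun a b => v a (I b))

theorem cast_intMinor (v : Fin k → Fin n → ℤ) (I : Fin k → Fin n) :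
    (intMinor v I : ℝ) = minor 1 v I := by
  rw [intMinor, minor, ← eq_intCast (Int.castRingHom ℝ), RingHom.map_det]
  congr 1
  ext a b
  simp [toR]

/-- The minors of an image are combinations of the integral minors. -/
theorem minor_eq_sum (A : Matrix (Fin n) (Fin n) ℝ) (v : Fin k → Fin n → ℤ)
    (I : Fin k → Fin n) :
    minor A v I = ∑ J : Fin k → Fin n, (∏ b, A (I b) (J b)) * (intMinor v J : ℝ) := by
  classical
  simp only [minor, intMinor, det_apply', Int.cast_sum, Int.cast_mul, Int.cast_prod, of_apply,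
    mulVec, dotProduct, toR, prod_univ_sum, Fintype.piFinset_univ,
    mul_sum]
  rw [sum_comm]
  refine sum_congr rfl fun J _ => sum_congr rfl fun σ _ => ?_
  rw [prod_mul_distrib]
  push_cast
  ring

theorem minor_cons (A : Matrix (Fin n) (Fin n) ℝ) (w : Fin n → ℤ) (v : Fin k → Fin n → ℤ)
    (I : Fin (k + 1) → Fin n) :
    minor A (Fin.cons w v) I =
      ∑ b : Fin (k + 1), (-1) ^ (b : ℕ) * (A *ᵥ toR w) (I b) * minor A v (I ∘ b.succAbove) := by
  rw [minor, det_succ_row_zero]
  rfl

theorem abs_minor_le (A : Matrix (Fin n) (Fin n) ℝ) (v : Fin k → Fin n → ℤ)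
    (I : Fin k → Fin n) : |minor A v I| ≤ plucker A v := by
  rw [← Real.norm_eq_abs]
  exact norm_le_pi_norm (fun I => minor A v I) I

theorem plucker_cons_le (A : Matrix (Fin n) (Fin n) ℝ) (w : Fin n → ℤ)
    (v : Fin k → Fin n → ℤ) :
    plucker A (Fin.cons w v) ≤ ((k : ℝ) + 1) * ‖A *ᵥ toR w‖ * plucker A v := by
  refine (pi_norm_le_iff_of_nonneg
    (mul_nonneg (by positivity) (norm_nonneg _))).2 fun I => ?_
  rw [Real.norm_eq_abs, minor_cons]
  refine (abs_sum_le_sum_abs _ _).trans
    ((sum_le_card_nsmul _ _ (‖A *ᵥ toR w‖ * plucker A v) fun b _ => ?_).trans_eq ?_)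
  · rw [abs_mul, abs_mul, abs_neg_one_pow, one_mul, ← Real.norm_eq_abs]
    exact mul_le_mul (norm_le_pi_norm _ _) (abs_minor_le _ _ _) (abs_nonneg _) (norm_nonneg _)
  · rw [card_univ, Fintype.card_fin, nsmul_eq_mul, Nat.cast_add, Nat.cast_one, mul_assoc]
    rfl

theorem minor_change (A : Matrix (Fin n) (Fin n) ℝ) {v v' : Fin k → Fin n → ℤ}
    (M : Matrix (Fin k) (Fin k) ℝ) (h : ∀ a, toR (v' a) = ∑ c, M a c • toR (v c))
    (I : Fin k → Fin n) : minor A v' I = M.det * minor A v I := by
  rw [minor, minor, ← det_mul]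
  congr 1
  ext a b
  simp [h a, mulVec_sum, mulVec_smul, Matrix.mul_apply]

/-- The vectors of `v` are independent. -/
def Indep (v : Fin k → Fin n → ℤ) : Prop := LinearIndependent ℝ fun a => toR (v a)

theorem exists_intMinor_ne_zero {v : Fin k → Fin n → ℤ} (hv : Indep v) :
    ∃ I, intMinor v I ≠ 0 := by
  set M : Matrix (Fin k) (Fin n) ℝ := of fun a => toR (v a) with hM
  have hrank : M.rank = k := by
    have := LinearIndependent.rank_matrix (show LinearIndependent ℝ M.row from hv)
    simpa using this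
  rw [rank_eq_finrank_span_cols] at hrank
  obtain ⟨f, hf, -, hli⟩ := Submodule.exists_fun_fin_finrank_span_eq ℝ (Set.range M.col)
  choose I hI using hf
  refine ⟨I ∘ Fin.cast hrank.symm, fun h0 => ?_⟩
  have hdet : (of (f ∘ Fin.cast hrank.symm)).det = minor 1 v (I ∘ Fin.cast hrank.symm) := by
    rw [minor, ← det_transpose]
    congr 1
    ext a b
    simp [← hI, hM, toR]
  have := (Matrix.isUnit_iff_isUnit_det _).1 (linearIndependent_rows_iff_isUnit.1
    (show LinearIndependent ℝ (of (f ∘ Fin.cast hrank.symm)).row from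
      hli.comp _ (Fin.cast_injective _)))
  rw [hdet, ← cast_intMinor, h0, Int.cast_zero] at this
  exact not_isUnit_zero this

theorem indep_of_intMinor_ne_zero {v : Fin k → Fin n → ℤ} {I : Fin k → Fin n}
    (h : intMinor v I ≠ 0) : Indep v := by
  refine Fintype.linearIndependent_iff.2 fun g hg => congrFun (Matrix.eq_zero_of_vecMul_eq_zero
    (M := of fun a b => toR (v a) (I b)) ?_ (funext fun b => ?_))
  · have := cast_intMinor v I
    simp only [minor, one_mulVec] at this
    rw [← this]
    exact Int.cast_ne_zero.2 h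
  · have := congrFun hg (I b)
    simpa [vecMul, dotProduct] using this

theorem mem_span_iff_intMinor {v : Fin k → Fin n → ℤ} (hv : Indep v) (w : Fin n → ℤ) :
    toR w ∈ Submodule.span ℝ (Set.range fun a => toR (v a)) ↔
      ∀ I, intMinor (Fin.cons w v) I = 0 := by
  have e : (fun a => toR ((Fin.cons w v : Fin (k + 1) → Fin n → ℤ) a)) =
      Fin.cons (toR w) fun a => toR (v a) := by
    funext a
    refine Fin.cases ?_ (fun i => ?_) a <;> simp
  have hiff : Indep (Fin.cons w v) ↔
      toR w ∉ Submodule.span ℝ (Set.range fun a => toR (v a)) := by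
    rw [Indep, e, linearIndependent_finCons]
    exact ⟨fun h => h.2, fun h => ⟨hv, h⟩⟩
  constructor
  · intro hw I
    by_contra h
    exact hiff.1 (indep_of_intMinor_ne_zero h) hw
  · intro h
    by_contra hw
    obtain ⟨I, hI⟩ := exists_intMinor_ne_zero (hiff.2 hw)
    exact hI (h I)

/-- The integral vectors in the span of `v`. -/
def latticeSpan (v : Fin k → Fin n → ℤ) : Set (Fin n → ℤ) :=
  {w | toR w ∈ Submodule.span ℝ (Set.range fun a => toR (v a))}

theorem self_mem_latticeSpan (v : Fin k → Fin n → ℤ) (a : Fin k) : v a ∈ latticeSpan v :=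
  Submodule.subset_span ⟨a, rfl⟩

theorem span_le_of_subset {l : ℕ} {v : Fin k → Fin n → ℤ} {v' : Fin l → Fin n → ℤ}
    (h : latticeSpan v ⊆ latticeSpan v') :
    Submodule.span ℝ (Set.range fun a => toR (v a)) ≤
      Submodule.span ℝ (Set.range fun a => toR (v' a)) :=
  Submodule.span_le.2 fun _ ⟨a, ha⟩ => ha ▸ h (self_mem_latticeSpan v a)

theorem card_le_of_subset {l : ℕ} {v : Fin k → Fin n → ℤ} {v' : Fin l → Fin n → ℤ} (hv : Indep v)
    (hv' : Indep v') (h : latticeSpan v ⊆ latticeSpan v') : k ≤ l := by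
  have := Submodule.finrank_mono (span_le_of_subset h)
  rwa [finrank_span_eq_card hv, finrank_span_eq_card hv', Fintype.card_fin,
    Fintype.card_fin] at this

theorem eq_of_subset_of_card {v v' : Fin k → Fin n → ℤ} (hv : Indep v) (hv' : Indep v')
    (h : latticeSpan v ⊆ latticeSpan v') : latticeSpan v = latticeSpan v' := by
  have := Submodule.eq_of_le_of_finrank_eq (span_le_of_subset h)
    ((finrank_span_eq_card hv).trans (finrank_span_eq_card hv').symm)
  simp only [latticeSpan, this]

theorem indep_card_le {v : Fin k → Fin n → ℤ} (hv : Indep v) : k ≤ n := by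
  simpa using hv.fintype_card_le_finrank

/-- The nonzero subspaces spanned by integral vectors, by their integral points. -/
def RatSubspace (n : ℕ) : Type :=
  {S : Set (Fin n → ℤ) // ∃ (k : ℕ) (v : Fin k → Fin n → ℤ),
    0 < k ∧ Indep v ∧ latticeSpan v = S}

instance : PartialOrder (RatSubspace n) :=
  inferInstanceAs (PartialOrder (Subtype _))

/-- The dimension. -/
def RatSubspace.rank (S : RatSubspace n) : ℕ := S.2.choose

/-- The total size of the integral minors. -/
def size (v : Fin k → Fin n → ℤ) : ℕ := ∑ I, (intMinor v I).natAbs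

theorem RatSubspace.exists_min (S : RatSubspace n) :
    ∃ v : Fin S.rank → Fin n → ℤ, (Indep v ∧ latticeSpan v = S.1) ∧
      ∀ v' : Fin S.rank → Fin n → ℤ, Indep v' ∧ latticeSpan v' = S.1 → size v ≤ size v' := by
  classical
  obtain ⟨v, -, h⟩ := S.2.choose_spec
  have hex : ∃ m, ∃ v : Fin S.rank → Fin n → ℤ, (Indep v ∧ latticeSpan v = S.1) ∧ size v = m :=
    ⟨_, v, h, rfl⟩
  obtain ⟨w, hw, hm⟩ := Nat.find_spec hex
  exact ⟨w, hw, fun v' hv' => hm ▸ Nat.find_min' hex ⟨v', hv', rfl⟩⟩

/-- The best tuple of a subspace. -/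
def RatSubspace.rep (S : RatSubspace n) : Fin S.rank → Fin n → ℤ := S.exists_min.choose

theorem RatSubspace.indep_rep (S : RatSubspace n) : Indep S.rep := S.exists_min.choose_spec.1.1

theorem RatSubspace.latticeSpan_rep (S : RatSubspace n) : latticeSpan S.rep = S.1 :=
  S.exists_min.choose_spec.1.2

theorem RatSubspace.rank_pos (S : RatSubspace n) : 0 < S.rank := S.2.choose_spec.choose_spec.1

theorem RatSubspace.rank_le (S : RatSubspace n) : S.rank ≤ n := indep_card_le S.indep_rep

theorem RatSubspace.rank_mono {S T : RatSubspace n} (h : S ≤ T) : S.rank ≤ T.rank :=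
  card_le_of_subset S.indep_rep T.indep_rep (by rw [S.latticeSpan_rep, T.latticeSpan_rep]; exact h)

theorem RatSubspace.eq_of_le_of_rank {S T : RatSubspace n} (h : S ≤ T) (hr : T.rank ≤ S.rank) :
    S = T := by
  have hrr := le_antisymm (rank_mono h) hr
  have hsub : latticeSpan S.rep ⊆ latticeSpan T.rep := by
    rw [S.latticeSpan_rep, T.latticeSpan_rep]; exact h
  have key : ∀ (m : ℕ) (u : Fin m → Fin n → ℤ), m = S.rank → Indep u →
      latticeSpan S.rep ⊆ latticeSpan u → latticeSpan S.rep = latticeSpan u := by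
    rintro m u rfl hu hsu
    exact eq_of_subset_of_card S.indep_rep hu hsu
  apply Subtype.ext
  rw [← S.latticeSpan_rep, key _ _ hrr.symm T.indep_rep hsub, T.latticeSpan_rep]

/-- The norm of a subspace in the lattice `A ℤ ^ n`. -/
def RatSubspace.norm (A : Matrix (Fin n) (Fin n) ℝ) (S : RatSubspace n) : ℝ := plucker A S.rep

/-- The subspace spanned by an independent tuple. -/
def RatSubspace.mk (v : Fin k → Fin n → ℤ) (hk : 0 < k) (hv : Indep v) : RatSubspace n :=
  ⟨latticeSpan v, k, v, hk, hv, rfl⟩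

theorem RatSubspace.norm_mk_le (A : Matrix (Fin n) (Fin n) ℝ) (v : Fin k → Fin n → ℤ) (hk : 0 < k)
    (hv : Indep v) : (RatSubspace.mk v hk hv).norm A ≤ plucker A v := by
  set S := RatSubspace.mk v hk hv with hS
  have hkS : S.rank = k := le_antisymm
    (card_le_of_subset S.indep_rep hv S.latticeSpan_rep.subset)
    (card_le_of_subset hv S.indep_rep S.latticeSpan_rep.superset)
  have key : ∀ (m : ℕ) (u : Fin m → Fin n → ℤ), m = k → Indep u → latticeSpan u = latticeSpan v →
      (∀ v' : Fin m → Fin n → ℤ, Indep v' ∧ latticeSpan v' = latticeSpan v → size u ≤ size v') →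
      plucker A u ≤ plucker A v := by
    rintro m u rfl hu hspan hmin
    have hmem : ∀ a, toR (v a) ∈ Submodule.span ℝ (Set.range fun c => toR (u c)) := fun a => by
      have := self_mem_latticeSpan v a
      rwa [← hspan] at this
    choose M hM using fun a => (Submodule.mem_span_range_iff_exists_fun ℝ).1 (hmem a)
    have hchange := fun B => minor_change (v := u) (v' := v) B (of M) fun a => (hM a).symm
    have hlam : 1 ≤ |(of M).det| := by
      obtain ⟨I, hI⟩ := exists_intMinor_ne_zero hu
      have hpos : 0 < (size u : ℝ) := Nat.cast_pos.2 (lt_of_lt_of_le (Int.natAbs_pos.2 hI)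
        (single_le_sum (f := fun I => (intMinor u I).natAbs) (fun _ _ => Nat.zero_le _)
          (mem_univ I)))
      have hsize : (size v : ℝ) = |(of M).det| * size u := by
        simp only [size, Nat.cast_sum, Nat.cast_natAbs, Int.cast_abs, cast_intMinor, hchange,
          abs_mul, mul_sum]
      have h1 : (size u : ℝ) ≤ size v := Nat.cast_le.2 (hmin v ⟨hv, rfl⟩)
      rw [hsize] at h1
      exact le_of_mul_le_mul_right (by linarith) hpos
    refine (pi_norm_le_iff_of_nonneg (norm_nonneg _)).2 fun I => ?_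
    rw [Real.norm_eq_abs]
    refine le_trans ?_ (abs_minor_le A v I)
    rw [hchange A I, abs_mul]
    exact le_mul_of_one_le_left (abs_nonneg _) hlam
  exact key _ S.rep hkS S.indep_rep S.latticeSpan_rep S.exists_min.choose_spec.2

/-- Only finitely many subspaces have a given bound on their integral minors. -/
theorem finite_subspaces (R : ℤ) :
    {S : RatSubspace n | ∀ I, |intMinor S.rep I| ≤ R}.Finite := by
  classical
  suffices h : ∀ k ∈ Finset.range (n + 1),
      {S : RatSubspace n | S.rank = k ∧ ∀ I, |intMinor S.rep I| ≤ R}.Finite by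
    refine ((Finset.range (n + 1)).finite_toSet.biUnion h).subset fun S hS => ?_
    exact Set.mem_biUnion (Finset.mem_range.2 (Nat.lt_succ_of_le S.rank_le)) ⟨rfl, hS⟩
  intro k _
  have hinj : ∀ (S T : RatSubspace n) (hS : S.rank = k) (hT : T.rank = k),
      (fun I : Fin k → Fin n => intMinor S.rep (I ∘ Fin.cast hS)) =
        (fun I => intMinor T.rep (I ∘ Fin.cast hT)) → S = T := by
    intro S T hS hT h
    have key : ∀ (a b : ℕ) (u : Fin a → Fin n → ℤ) (v : Fin b → Fin n → ℤ) (ha : a = k)
        (hb : b = k), Indep u → Indep v →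
        (fun I : Fin k → Fin n => intMinor u (I ∘ Fin.cast ha)) =
          (fun I => intMinor v (I ∘ Fin.cast hb)) → latticeSpan u = latticeSpan v := by
      rintro a b u v rfl rfl hu hv h
      ext w
      refine (mem_span_iff_intMinor hu w).trans (Iff.trans ?_ (mem_span_iff_intMinor hv w).symm)
      refine forall_congr' fun I => ?_
      have e : ∀ v : Fin b → Fin n → ℤ, intMinor (Fin.cons w v) I =
          ∑ c : Fin (b + 1), (-1) ^ (c : ℕ) * w (I c) * intMinor v (I ∘ c.succAbove) := by
        intro v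
        rw [intMinor, det_succ_row_zero]
        rfl
      rw [e, e]
      have h' : ∀ J, intMinor u J = intMinor v J := fun J => congrFun h J
      simp only [h']
    apply Subtype.ext
    rw [← S.latticeSpan_rep, ← T.latticeSpan_rep]
    exact key _ _ _ _ hS hT S.indep_rep T.indep_rep h
  refine Set.Finite.of_finite_image (f := fun S : RatSubspace n => fun I : Fin k → Fin n =>
    if h : S.rank = k then intMinor S.rep (I ∘ Fin.cast h) else 0) ?_ ?_
  · refine (Set.Finite.pi fun _ => Set.finite_Icc (-R) R).subset ?_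
    rintro _ ⟨S, ⟨hS, hR⟩, rfl⟩ I -
    dsimp only
    rw [dif_pos hS]
    exact Set.mem_Icc.2 (abs_le.1 (hR _))
  · intro S hS T hT h
    simp only [dif_pos hS.1, dif_pos hT.1] at h
    exact hinj S T hS.1 hT.1 h

theorem intMinor_eq_sum_minor {A B : Matrix (Fin n) (Fin n) ℝ} (hBA : B * A = 1)
    (v : Fin k → Fin n → ℤ) (I : Fin k → Fin n) :
    (intMinor v I : ℝ) = ∑ J, (∏ b, B (I b) (J b)) * minor A v J := by
  rw [cast_intMinor, minor_eq_sum]
  have e : ∀ K : Fin k → Fin n, ∏ b, (1 : Matrix (Fin n) (Fin n) ℝ) (I b) (K b) =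
      ∑ J : Fin k → Fin n, (∏ b, B (I b) (J b)) * ∏ b, A (J b) (K b) := fun K => by
    simp only [← hBA, Matrix.mul_apply, prod_univ_sum, Fintype.piFinset_univ, prod_mul_distrib]
  simp only [e, sum_mul, minor_eq_sum, mul_sum, mul_assoc]
  exact sum_comm

/-- An invertible matrix has only finitely many subspaces of small norm. -/
theorem finite_norm_lt {A B : Matrix (Fin n) (Fin n) ℝ} (hBA : B * A = 1) (ρ : ℝ) :
    {S : RatSubspace n | S.norm A < ρ}.Finite := by
  obtain ⟨R, hR⟩ : ∃ R : ℤ, ∀ (k : Fin (n + 1)) (I : Fin k → Fin n),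
      (∑ J : Fin k → Fin n, |∏ b, B (I b) (J b)|) * |ρ| ≤ (R : ℝ) := by
    obtain ⟨R, hR⟩ := exists_int_gt (∑ k : Fin (n + 1), ∑ I : Fin k → Fin n,
      (∑ J : Fin k → Fin n, |∏ b, B (I b) (J b)|) * |ρ|)
    refine ⟨R, fun k I => le_trans ?_ hR.le⟩
    refine le_trans (single_le_sum (f := fun I : Fin k → Fin n =>
      (∑ J : Fin k → Fin n, |∏ b, B (I b) (J b)|) * |ρ|) (fun _ _ =>
        mul_nonneg (sum_nonneg fun _ _ => abs_nonneg _) (abs_nonneg _))
        (mem_univ I)) (single_le_sum (f := fun k : Fin (n + 1) => ∑ I : Fin k → Fin n,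
      (∑ J : Fin k → Fin n, |∏ b, B (I b) (J b)|) * |ρ|) (fun _ _ =>
        sum_nonneg fun _ _ => mul_nonneg (sum_nonneg fun _ _ => abs_nonneg _) (abs_nonneg _))
        (mem_univ k))
  refine (finite_subspaces R).subset fun S hS I => ?_
  have h1 := intMinor_eq_sum_minor hBA S.rep I
  have h2 : |(intMinor S.rep I : ℝ)| ≤ R := by
    rw [h1]
    refine (abs_sum_le_sum_abs _ _).trans (le_trans ?_
      (hR ⟨S.rank, Nat.lt_succ_of_le S.rank_le⟩ I))
    rw [sum_mul]
    refine sum_le_sum fun J _ => ?_
    rw [abs_mul]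
    exact mul_le_mul_of_nonneg_left ((abs_minor_le A S.rep J).trans
      (le_trans (le_of_lt hS) (le_abs_self ρ))) (abs_nonneg _)
  exact_mod_cast h2

theorem card_chain_le (F : Finset (RatSubspace n))
    (hF : ∀ s ∈ F, ∀ t ∈ F, s ≤ t ∨ t ≤ s) : F.card ≤ n := by
  refine (card_le_card_of_injOn RatSubspace.rank (t := Finset.Icc 1 n) (fun S _ =>
    Finset.mem_Icc.2 ⟨S.rank_pos, S.rank_le⟩) fun S hS T hT h => ?_).trans (by simp)
  rcases hF S hS T hT with hle | hle
  · exact RatSubspace.eq_of_le_of_rank hle h.ge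
  · exact (RatSubspace.eq_of_le_of_rank hle h.le).symm

/-- **A marked point has no short vector.** -/
theorem le_norm_of_isMarked {ε ρ : ℝ} (hε : 0 < ε) (hερ : ε ≤ ρ) (hρn : (n : ℝ) * ρ ≤ 1)
    (A : ℝ → Matrix (Fin n) (Fin n) ℝ) {x : ℝ}
    (h : IsMarked Set.univ (fun S y => RatSubspace.norm (A y) S) ε ρ x) {w : Fin n → ℤ}
    (hw : w ≠ 0) : ε ≤ ‖A x *ᵥ toR w‖ := by
  classical
  obtain ⟨F, -, hch, hM1, hM2⟩ := h
  by_contra! hlt
  have hρ : 0 < ρ := hε.trans_le hερ
  have hw0 : toR w ≠ 0 := fun h => hw (funext fun i => by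
    have := congrFun h i
    simpa [toR] using this)
  -- a new element of the flag
  obtain ⟨S, hcomp, hsmall⟩ : ∃ S : RatSubspace n,
      (∀ T ∈ F, S ≤ T ∨ T ≤ S) ∧ S.norm (A x) < ε := by
    rcases (F.filter fun T => w ∉ T.1).eq_empty_or_nonempty with h0 | hne
    · have hv : Indep (fun _ : Fin 1 => w) :=
        linearIndependent_unique_iff (v := fun _ : Fin 1 => toR w) |>.2 hw0
      refine ⟨RatSubspace.mk _ one_pos hv, fun T hT => Or.inl ?_, ?_⟩
      · have hwT : w ∈ T.1 := by
          by_contra hwT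
          exact absurd (mem_filter.2 ⟨hT, hwT⟩) (by rw [h0]; simp)
        intro u hu
        rw [← T.latticeSpan_rep] at hwT ⊢
        have hu' : toR u ∈ Submodule.span ℝ (Set.range fun _ : Fin 1 => toR w) := hu
        show toR u ∈ Submodule.span ℝ (Set.range fun a => toR (T.rep a))
        refine Submodule.span_le.2 ?_ hu'
        rintro _ ⟨_, rfl⟩
        exact hwT
      · refine (RatSubspace.norm_mk_le _ _ _ _).trans_lt (lt_of_le_of_lt ?_ hlt)
        refine (pi_norm_le_iff_of_nonneg (norm_nonneg _)).2 fun I => ?_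
        rw [minor, det_fin_one]
        exact norm_le_pi_norm (A x *ᵥ toR w) (I 0)
    · obtain ⟨S₀, hS₀, hmax⟩ := exists_max_image _ RatSubspace.rank hne
      obtain ⟨hS₀F, hwS₀⟩ := mem_filter.1 hS₀
      have hv : Indep (Fin.cons w S₀.rep) := by
        obtain ⟨I, hI⟩ : ∃ I, intMinor (Fin.cons w S₀.rep) I ≠ 0 := by
          by_contra! hall
          refine hwS₀ ?_
          rw [← S₀.latticeSpan_rep]
          exact (mem_span_iff_intMinor S₀.indep_rep w).2 hall
        exact indep_of_intMinor_ne_zero hI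
      refine ⟨RatSubspace.mk _ (Nat.succ_pos _) hv, fun T hT => ?_, ?_⟩
      · by_cases hwT : w ∈ T.1
        · left
          have hle : S₀.1 ⊆ T.1 := by
            rcases hch S₀ hS₀F T hT with h | h
            · exact h
            · exact absurd (h hwT) hwS₀
          intro u hu
          rw [← T.latticeSpan_rep] at hwT hle ⊢
          have hu' : toR u ∈ Submodule.span ℝ (Set.range fun a =>
              toR ((Fin.cons w S₀.rep : Fin (S₀.rank + 1) → Fin n → ℤ) a)) := hu
          show toR u ∈ Submodule.span ℝ (Set.range fun a => toR (T.rep a))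
          refine Submodule.span_le.2 ?_ hu'
          rintro _ ⟨a, rfl⟩
          refine Fin.cases ?_ (fun a => ?_) a
          · exact hwT
          · exact hle (by rw [← S₀.latticeSpan_rep]; exact self_mem_latticeSpan _ a)
        · right
          have hle : T.1 ⊆ S₀.1 := by
            rcases hch S₀ hS₀F T hT with h | h
            · rw [RatSubspace.eq_of_le_of_rank h (hmax T (mem_filter.2 ⟨hT, hwT⟩))]
            · exact h
          intro u hu
          have hu' := hle hu
          rw [← S₀.latticeSpan_rep] at hu'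
          refine Submodule.span_mono ?_ hu'
          rintro _ ⟨a, rfl⟩
          exact ⟨a.succ, by simp⟩
      · refine (RatSubspace.norm_mk_le _ _ _ _).trans_lt
          ((plucker_cons_le _ _ _).trans_lt ?_)
        have hk : ((S₀.rank : ℝ) + 1) ≤ n := by exact_mod_cast indep_card_le hv
        calc ((S₀.rank : ℝ) + 1) * ‖A x *ᵥ toR w‖ * plucker (A x) S₀.rep
            ≤ ((S₀.rank : ℝ) + 1) * ‖A x *ᵥ toR w‖ * ρ :=
              mul_le_mul_of_nonneg_left (hM1 S₀ hS₀F).2 (by positivity)
          _ < ((S₀.rank : ℝ) + 1) * ε * ρ :=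
              mul_lt_mul_of_pos_right (mul_lt_mul_of_pos_left hlt (by positivity)) hρ
          _ ≤ ε := by
              have := mul_le_mul_of_nonneg_left
                ((mul_le_mul_of_nonneg_right hk hρ.le).trans hρn) hε.le
              linarith
  by_cases hSF : S ∈ F
  · linarith [(hM1 S hSF).1]
  · linarith [hM2 S (Set.mem_univ S) hSF hcomp]

end FA.Nondivergence
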