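import Fermat.Agent.Nondivergence.PolynomialCurve
import Mathlib.Analysis.Analytic.Order
import Mathlib.Analysis.Calculus.Deriv.Polynomial
import Mathlib.Analysis.Calculus.Deriv.Prod
import Mathlib.Analysis.Calculus.LocalExtr.Rolle
import Mathlib.Topology.ContinuousMap.Compact

/-!
# Nondegenerate curves

A function one of whose derivatives is bounded away from zero is good. Hence a curve is tame near
each point where its derivatives span the space, and such points are almost never very well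
approximable; analytic curves in no affine hyperplane are extremal.
-/

set_option autoImplicit false

noncomputable section

open Finset MeasureTheory Polynomial
open scoped ENNReal NNReal Topology

namespace FA.Nondivergence

open FA.Transference

variable {d : ℕ}

/-- **Rolle, iterated.** -/
theorem exists_eq_zero_of_zeros {a b : ℝ} :
    ∀ (k : ℕ) (H : ℕ → ℝ → ℝ),
      (∀ j < k, ∀ x ∈ Set.Icc a b, HasDerivAt (H j) (H (j + 1) x) x) →
      ∀ z : Fin (k + 1) → ℝ, StrictMono z → (∀ i, z i ∈ Set.Icc a b) → (∀ i, H 0 (z i) = 0) →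
        ∃ ξ ∈ Set.Icc a b, H k ξ = 0
  | 0, _, _, z, _, hz, h0 => ⟨z 0, hz 0, h0 0⟩
  | k + 1, H, hH, z, hmono, hz, h0 => by
    have hsub : ∀ i : Fin (k + 1), Set.Icc (z i.castSucc) (z i.succ) ⊆ Set.Icc a b := fun i =>
      Set.Icc_subset_Icc (hz _).1 (hz _).2
    have hR : ∀ i : Fin (k + 1), ∃ w ∈ Set.Ioo (z i.castSucc) (z i.succ), H 1 w = 0 := fun i =>
      exists_hasDerivAt_eq_zero (hmono i.castSucc_lt_succ)
        (fun x hx => (hH 0 k.succ_pos x (hsub i hx)).continuousAt.continuousWithinAt)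
        ((h0 _).trans (h0 _).symm)
        fun x hx => hH 0 k.succ_pos x (hsub i (Set.Ioo_subset_Icc_self hx))
    choose w hw hw0 using hR
    refine exists_eq_zero_of_zeros k (fun j => H (j + 1))
      (fun j hj => hH (j + 1) (Nat.succ_lt_succ hj)) w ?_
      (fun i => hsub i (Set.Ioo_subset_Icc_self (hw i))) hw0
    refine Fin.strictMono_iff_lt_succ.2 fun i => (hw i.castSucc).2.trans ?_
    exact (hw i.succ).1

theorem iterate_derivative_nodal (S : Finset ℝ) :
    derivative^[S.card] (Lagrange.nodal S id) = C (S.card.factorial : ℝ) := by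
  have hdeg : (derivative^[S.card] (Lagrange.nodal S id)).natDegree = 0 := by
    have := natDegree_iterate_derivative (Lagrange.nodal S id) S.card
    rw [Lagrange.natDegree_nodal, Nat.sub_self] at this
    exact Nat.le_zero.1 this
  have hc : (Lagrange.nodal S id).coeff S.card = 1 := by
    have := (Lagrange.nodal_monic (s := S) (v := id)).coeff_natDegree
    rwa [Lagrange.natDegree_nodal] at this
  rw [eq_C_of_natDegree_eq_zero hdeg, coeff_iterate_derivative, zero_add, hc,
    Nat.descFactorial_self, nsmul_one]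

/-- The error of interpolation. -/
theorem exists_eq_interpolate_add {G : ℕ → ℝ → ℝ} {a b y : ℝ} {k : ℕ}
    (hG : ∀ j < k, ∀ x ∈ Set.Icc a b, HasDerivAt (G j) (G (j + 1) x) x) {S : Finset ℝ}
    (hS : ↑S ⊆ Set.Icc a b) (hk : S.card = k) (hy : y ∈ Set.Icc a b) :
    ∃ ξ ∈ Set.Icc a b, G 0 y =
      (Lagrange.interpolate S id (G 0)).eval y + G k ξ / k.factorial * ∏ x ∈ S, (y - x) := by
  classical
  set q := Lagrange.interpolate S id (G 0) with hq
  have hinj : Set.InjOn (id : ℝ → ℝ) S := Function.injective_id.injOn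
  by_cases hyS : y ∈ S
  · refine ⟨y, hy, ?_⟩
    rw [prod_eq_zero hyS (sub_self y), mul_zero, add_zero, hq]
    exact (Lagrange.eval_interpolate_at_node _ hinj hyS).symm
  have hP : ∏ x ∈ S, (y - x) ≠ 0 :=
    prod_ne_zero_iff.2 fun x hx e => hyS ((sub_eq_zero.1 e).symm ▸ hx)
  set R := (G 0 y - q.eval y) / ∏ x ∈ S, (y - x) with hR
  set p := q + C R * Lagrange.nodal S id with hp
  have hcard : (insert y S).card = k + 1 := by rw [card_insert_of_notMem hyS, hk]
  obtain ⟨ξ, hξ, h0⟩ := exists_eq_zero_of_zeros k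
    (fun j x => G j x - (derivative^[j] p).eval x)
    (fun j hj x hx => by
      simp only [Function.iterate_succ_apply']
      exact (hG j hj x hx).fun_sub ((derivative^[j] p).hasDerivAt x))
    ((insert y S).orderEmbOfFin hcard) (OrderEmbedding.strictMono _)
    (fun i => by
      rcases mem_insert.1 (orderEmbOfFin_mem _ hcard i) with e | hm
      · simp only [e, hy]
      · exact hS hm)
    (fun i => by
      simp only [Function.iterate_zero, id_eq, hp, eval_add, eval_mul, eval_C, Lagrange.eval_nodal]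
      rcases mem_insert.1 (orderEmbOfFin_mem _ hcard i) with e | hm
      · rw [e, hR, div_mul_cancel₀ _ hP]
        ring
      · rw [prod_eq_zero hm (sub_self _), mul_zero, add_zero, sub_eq_zero]
        exact (Lagrange.eval_interpolate_at_node _ hinj hm).symm)
  refine ⟨ξ, hξ, ?_⟩
  have hk0 : derivative^[k] p = C (R * k.factorial) := by
    have hq0 : derivative^[k] q = 0 := iterate_derivative_eq_zero_of_degree_lt (by
      rw [← hk]; exact Lagrange.degree_interpolate_lt _ hinj)
    rw [hp, iterate_map_add, hq0, zero_add, iterate_derivative_C_mul, ← hk,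
      iterate_derivative_nodal, C_mul]
  rw [hk0, eval_C, sub_eq_zero] at h0
  rw [h0, mul_div_cancel_right₀ _ (Nat.cast_ne_zero.2 k.factorial_ne_zero), hR,
    div_mul_cancel₀ _ hP]
  ring

/-- The constant of functions with a derivative of order at most `N` whose size varies by a
factor at most `R`. -/
def derivConst (N : ℕ) (R : ℝ) : ℝ := 2 * ((N : ℝ) + 1) * (((N : ℝ) + 1) * (1 + R) + 1)

/-- **A derivative bounded away from zero makes a function good.** -/
theorem isGood_of_deriv {G : ℕ → ℝ → ℝ} {a b m M : ℝ} {k N : ℕ} (hk : 0 < k) (hkN : k ≤ N)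
    (hm : 0 < m) (hM : 0 ≤ M) (hG : ∀ j < k, ∀ x ∈ Set.Icc a b, HasDerivAt (G j) (G (j + 1) x) x)
    (hlow : ∀ x ∈ Set.Icc a b, m ≤ |G k x|) (hupp : ∀ x ∈ Set.Icc a b, |G k x| ≤ M) :
    IsGood (derivConst N (M / m)) (1 / ((2 * N : ℕ) : ℝ)) a b (G 0) := by
  obtain ⟨k, rfl⟩ : ∃ k', k = k' + 1 := ⟨k - 1, by omega⟩
  intro l r hal hlr hrb y hy ε hε hne
  set K : ℝ := ((N : ℝ) + 1) * (1 + M / m) with hKdef
  set c := derivConst N (M / m) with hcdef
  set p := 2 * N with hpdef
  set e := ε / |G 0 y| with he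
  set B := c * e ^ (1 / (p : ℝ)) * (r - l) with hB
  by_contra hbig
  rw [not_le] at hbig
  have hh : 0 < r - l := sub_pos.2 hlr
  have hy0 : 0 < |G 0 y| := abs_pos.2 hne
  have he0 : 0 < e := div_pos hε hy0
  have hK0 : 0 < K := by positivity
  have hc0 : 0 < c := by
    rw [hcdef, derivConst]
    positivity
  have hB0 : 0 < B := mul_pos (mul_pos hc0 (Real.rpow_pos_of_pos he0 _)) hh
  have hBh : B < r - l := by
    have := hbig.trans_le (measure_mono fun x hx => hx.1)
    rw [Real.volume_Ioo, ENNReal.ofReal_lt_ofReal_iff hh] at this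
    exact this
  set s : ℝ := B / (2 * ((k : ℝ) + 2)) with hs
  have hs0 : 0 < s := div_pos hB0 (by positivity)
  obtain ⟨S, hSE, hScard, hsep⟩ := exists_separated (s := s) (k + 1) (by
    refine lt_of_le_of_lt (ENNReal.ofReal_le_ofReal ?_) hbig
    rw [hs, Nat.cast_add, Nat.cast_one]
    field_simp
    linarith) (k + 2) le_rfl
  obtain ⟨x₀, hx₀⟩ := card_pos.1 (by omega : 0 < S.card)
  have hcard : (S.erase x₀).card = k + 1 := by
    rw [card_erase_of_mem hx₀, hScard]
    rfl
  have hsub : ↑(S.erase x₀) ⊆ Set.Icc l r := fun x hx =>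
    Set.Ioo_subset_Icc_self (hSE (mem_of_mem_erase hx)).1
  set u := (r - l) / s with hu
  have hu1 : 1 ≤ u :=
    (one_le_div hs0).2 ((div_le_self hB0.le (by linarith [k.cast_nonneg (α := ℝ)])).trans hBh.le)
  have hdist : ∀ z ∈ Set.Icc l r, ∀ x ∈ S.erase x₀, |z - x| ≤ r - l := fun z hz x hx =>
    abs_le.2 ⟨by linarith [hz.1, (hsub hx).2], by linarith [hz.2, (hsub hx).1]⟩
  have hq : ∀ z ∈ Set.Icc l r,
      |(Lagrange.interpolate (S.erase x₀) id (G 0)).eval z| ≤ ((k : ℝ) + 1) * ε * u ^ k :=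
    fun z hz => abs_eval_interpolate_le hε.le hs0 hcard
      (fun x hx => (hSE (mem_of_mem_erase hx)).2.le)
      (fun x hx x' hx' => hsep x (mem_of_mem_erase hx) x' (mem_of_mem_erase hx')) (hdist z hz)
  have hIcc : Set.Icc l r ⊆ Set.Icc a b := Set.Icc_subset_Icc hal hrb
  have hG' : ∀ j < k + 1, ∀ x ∈ Set.Icc l r, HasDerivAt (G j) (G (j + 1) x) x :=
    fun j hj x hx => hG j hj x (hIcc hx)
  -- the derivative is small
  have h1 : m / (k + 1).factorial * s ^ (k + 1) ≤ ((k : ℝ) + 2) * ε * u ^ k := by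
    obtain ⟨ξ, hξ, e1⟩ := exists_eq_interpolate_add hG' hsub hcard
      (Set.Ioo_subset_Icc_self (hSE hx₀).1)
    calc m / (k + 1).factorial * s ^ (k + 1)
        ≤ |G (k + 1) ξ / (k + 1).factorial * ∏ x ∈ S.erase x₀, (x₀ - x)| := by
          rw [abs_mul, abs_div, Nat.abs_cast, abs_prod, ← hcard]
          refine mul_le_mul (div_le_div_of_nonneg_right (hcard ▸ hlow ξ (hIcc hξ))
            (Nat.cast_nonneg _)) ?_ (by positivity) (by positivity)
          rw [← prod_const]
          exact prod_le_prod (fun _ _ => hs0.le) fun x hx =>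
            hsep x₀ hx₀ x (mem_of_mem_erase hx) (ne_of_mem_erase hx).symm
      _ = |G 0 x₀ - (Lagrange.interpolate (S.erase x₀) id (G 0)).eval x₀| := by
          rw [e1, add_sub_cancel_left]
      _ ≤ ε + ((k : ℝ) + 1) * ε * u ^ k :=
          (abs_sub _ _).trans (add_le_add (hSE hx₀).2.le (hq x₀ (Set.Ioo_subset_Icc_self
            (hSE hx₀).1)))
      _ ≤ _ := by linarith [mul_le_mul_of_nonneg_left (one_le_pow₀ hu1 (n := k)) hε.le]
  -- so the function is small
  have h2 : |G 0 y| ≤ K * ε * u ^ p := by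
    obtain ⟨ξ, hξ, e2⟩ := exists_eq_interpolate_add hG' hsub hcard hy
    have hup : |G (k + 1) ξ / (k + 1).factorial * ∏ x ∈ S.erase x₀, (y - x)| ≤
        M / (k + 1).factorial * (r - l) ^ (k + 1) := by
      rw [abs_mul, abs_div, Nat.abs_cast, abs_prod]
      refine mul_le_mul (div_le_div_of_nonneg_right (hupp ξ (hIcc hξ)) (Nat.cast_nonneg _)) ?_
        (by positivity) (by positivity)
      refine (prod_le_prod (fun _ _ => abs_nonneg _) (hdist y hy)).trans_eq ?_
      rw [prod_const, hcard]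
    have h3 : M / (k + 1).factorial * (r - l) ^ (k + 1) =
        M / m * (m / (k + 1).factorial * s ^ (k + 1)) * u ^ (k + 1) := by
      rw [show r - l = s * u by rw [hu]; field_simp, mul_pow]
      field_simp
    have hp1 : u ^ k ≤ u ^ p := pow_le_pow_right₀ hu1 (by omega)
    have hp2 : u ^ k * u ^ (k + 1) ≤ u ^ p := by
      rw [← pow_add]
      exact pow_le_pow_right₀ hu1 (by omega)
    have hkN' : (k : ℝ) + 1 ≤ N := by exact_mod_cast hkN
    calc |G 0 y| ≤ ((k : ℝ) + 1) * ε * u ^ k +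
          M / m * (((k : ℝ) + 2) * ε * u ^ k) * u ^ (k + 1) := by
          rw [e2]
          refine (abs_add_le _ _).trans (add_le_add (hq y hy) ((hup.trans_eq h3).trans ?_))
          gcongr
      _ ≤ ((N : ℝ) + 1) * ε * u ^ p + M / m * (((N : ℝ) + 1) * ε * u ^ p) := by
          rw [mul_assoc (M / m), mul_assoc _ (u ^ k) (u ^ (k + 1))]
          exact add_le_add
            (mul_le_mul (mul_le_mul_of_nonneg_right (by linarith) hε.le) hp1 (by positivity)
              (by positivity))
            (mul_le_mul_of_nonneg_left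
              (mul_le_mul (mul_le_mul_of_nonneg_right (by linarith) hε.le) hp2 (by positivity)
                (by positivity)) (by positivity))
      _ = K * ε * u ^ p := by ring
  -- solve for the measure
  have hp0 : p ≠ 0 := by omega
  set v : ℝ := 2 * ((k : ℝ) + 2) / c with hv
  have hu' : u = v / e ^ (1 / (p : ℝ)) := by
    rw [hu, hs, hB, hv]
    field_simp
  rw [hu', div_pow, one_div, Real.rpow_inv_natCast_pow he0.le hp0, he] at h2
  have hv0 : 0 ≤ v := by positivity
  have hv1 : v ≤ 1 / (K + 1) := by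
    rw [hv, div_le_div_iff₀ hc0 (by positivity), hcdef, derivConst, one_mul, ← hKdef]
    refine mul_le_mul_of_nonneg_right ?_ (by positivity)
    have : (k : ℝ) + 1 ≤ N := by exact_mod_cast hkN
    linarith
  have hvp : v ^ p ≤ 1 / (K + 1) :=
    (pow_le_of_le_one hv0 (hv1.trans ((div_le_one (by positivity)).2 (by linarith))) hp0).trans hv1
  have h4 : K * v ^ p < 1 := by
    refine (mul_le_mul_of_nonneg_left hvp hK0.le).trans_lt ?_
    rw [mul_one_div, div_lt_one (by positivity)]
    linarith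
  have h5 : K * ε * (v ^ p / (ε / |G 0 y|)) = K * v ^ p * |G 0 y| := by field_simp
  rw [h5] at h2
  linarith [mul_lt_mul_of_pos_right h4 hy0]

/-- The derivatives of `f` at `x` span the space. -/
def IsNondegenerateAt (f : ℝ → Fin d → ℝ) (x : ℝ) : Prop :=
  ∃ N : ℕ, ContDiffAt ℝ N f x ∧
    Submodule.span ℝ (Set.range fun k : Fin N => iteratedDeriv (k + 1) f x) = ⊤

/-- A constant function is good. -/
theorem isGood_const {C α : ℝ} (hC : 1 ≤ C) (hα : 0 ≤ α) (a b z : ℝ) :
    IsGood C α a b fun _ => z := by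
  intro l r _ hlr _ y _ ε hε hne
  rcases le_or_gt ε |z| with h | h
  · rw [show {x ∈ Set.Ioo l r | |z| < ε} = ∅ from
      Set.eq_empty_of_forall_notMem fun x hx => hx.2.not_ge h, measure_empty]
    exact zero_le
  · refine (measure_mono fun x hx => hx.1).trans ?_
    rw [Real.volume_Ioo]
    refine ENNReal.ofReal_le_ofReal (le_mul_of_one_le_left (sub_nonneg.2 hlr.le) ?_)
    exact one_le_mul_of_one_le_of_one_le hC
      (Real.one_le_rpow ((one_le_div (abs_pos.2 hne)).2 h.le) hα)

theorem exists_jet_near {f : ℝ → Fin d → ℝ} {x₀ : ℝ} {N : ℕ} (h : ContDiffAt ℝ N f x₀) {η : ℝ}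
    (hη : 0 < η) :
    ∃ δ, 0 < δ ∧ ∀ x, dist x x₀ < δ → ContinuousAt f x ∧
      (∀ j < N, HasDerivAt (iteratedDeriv j f) (iteratedDeriv (j + 1) f x) x) ∧
      ∀ j ≤ N, ‖iteratedDeriv j f x - iteratedDeriv j f x₀‖ ≤ η := by
  obtain ⟨u, hu, hfu⟩ := h.contDiffOn le_rfl (by simp)
  obtain ⟨U, hUu, hU, hxU⟩ := mem_nhds_iff.1 hu
  have hfU := hfu.mono hUu
  have hEq : ∀ j, Set.EqOn (iteratedDerivWithin j f U) (iteratedDeriv j f) U :=
    fun j => iteratedDerivWithin_of_isOpen hU
  have hev : ∀ᶠ x in 𝓝 x₀, x ∈ U ∧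
      ∀ j ∈ range (N + 1), ‖iteratedDeriv j f x - iteratedDeriv j f x₀‖ ≤ η := by
    refine (hU.eventually_mem hxU).and ((Filter.eventually_all_finset _).2 fun j hj => ?_)
    have hc := ((hfU.continuousOn_iteratedDerivWithin
      (by exact_mod_cast Nat.lt_succ_iff.1 (mem_range.1 hj)) hU.uniqueDiffOn).congr
      (hEq j).symm).continuousAt (hU.mem_nhds hxU)
    filter_upwards [Metric.tendsto_nhds.1 hc η hη] with x hx
    rw [dist_eq_norm] at hx
    exact hx.le
  obtain ⟨δ, hδ, hball⟩ := Metric.eventually_nhds_iff.1 hev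
  refine ⟨δ, hδ, fun x hx => ⟨?_, fun j hj => ?_, fun j hj => ?_⟩⟩
  · exact hfU.continuousOn.continuousAt (hU.mem_nhds (hball hx).1)
  · rw [iteratedDeriv_succ]
    refine DifferentiableAt.hasDerivAt ?_
    have hd := (hfU.differentiableOn_iteratedDerivWithin (by exact_mod_cast hj)
      hU.uniqueDiffOn).congr fun z hz => (hEq j hz).symm
    exact hd.differentiableAt (hU.mem_nhds (hball hx).1)
  · exact (hball hx).2 j (mem_range.2 (Nat.lt_succ_of_le hj))

/-- The pairing with a vector. -/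
def pairing (c v : Fin d → ℝ) : ℝ := ∑ i, c i * v i

theorem abs_pairing_le (c v : Fin d → ℝ) : |pairing c v| ≤ d * ‖c‖ * ‖v‖ := by
  refine (abs_sum_le_sum_abs _ _).trans ((sum_le_card_nsmul _ _ (‖c‖ * ‖v‖) fun i _ => ?_).trans_eq
    (by rw [card_univ, Fintype.card_fin, nsmul_eq_mul, mul_assoc]))
  rw [abs_mul]
  exact mul_le_mul (norm_le_pi_norm c i) (norm_le_pi_norm v i) (abs_nonneg _) (norm_nonneg _)

theorem pairing_sub (c v w : Fin d → ℝ) : pairing c (v - w) = pairing c v - pairing c w := by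
  simp [pairing, mul_sub, sum_sub_distrib]

/-- **A curve is tame near a nondegenerate point.** -/
theorem exists_isTame_near {f : ℝ → Fin d → ℝ} {x₀ : ℝ} (h : IsNondegenerateAt f x₀) :
    ∃ δ, 0 < δ ∧ ∀ a b, a < b → Set.Icc a b ⊆ Metric.ball x₀ δ →
      ∃ f' : ℝ → Fin d → ℝ, Set.EqOn f' f (Set.Icc a b) ∧ IsTame f' a b := by
  obtain ⟨N, hN, hspan⟩ := h
  let Λ : (Fin d → ℝ) →ₗ[ℝ] (Fin N → ℝ) :=
    { toFun := fun c k => pairing c (iteratedDeriv (k + 1) f x₀)
      map_add' := fun c c' => by ext k; simp [pairing, add_mul, sum_add_distrib]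
      map_smul' := fun z c => by ext k; simp [pairing, mul_sum, mul_assoc] }
  have hker : LinearMap.ker Λ = ⊥ := by
    refine LinearMap.ker_eq_bot'.2 fun c hc => ?_
    have hall : ∀ v : Fin d → ℝ, pairing c v = 0 := fun v => by
      have hv : v ∈ Submodule.span ℝ (Set.range fun k : Fin N =>
          iteratedDeriv (k + 1) f x₀) := hspan ▸ Submodule.mem_top
      induction hv using Submodule.span_induction with
      | mem v hv => obtain ⟨k, rfl⟩ := hv; exact congrFun hc k
      | zero => simp [pairing]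
      | add v w _ _ hv hw =>
        simpa [pairing, mul_add, sum_add_distrib] using (congrArg₂ (· + ·) hv hw).trans (add_zero 0)
      | smul z v _ hv =>
        have : pairing c (z • v) = z * pairing c v := by
          simp [pairing, mul_sum, mul_left_comm]
        rw [this, hv, mul_zero]
    funext i
    simpa [pairing, Pi.single_apply] using hall (Pi.single i 1)
  obtain ⟨K, hK, hanti⟩ := Λ.exists_antilipschitzWith hker
  have hKR : (0 : ℝ) < K := NNReal.coe_pos.2 hK
  set η : ℝ := 1 / (2 * ((K : ℝ) * d) + 1) with hη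
  obtain ⟨δ, hδ, hnear⟩ := exists_jet_near hN (η := η) (by positivity)
  set M₀ : ℝ := d * ((∑ j ∈ range (N + 1), ‖iteratedDeriv j f x₀‖) + η) with hM₀
  refine ⟨δ, hδ, fun a b hab hsub => ?_⟩
  have hcont : ContinuousOn f (Set.Icc a b) := fun x hx =>
    (hnear x (Metric.mem_ball.1 (hsub hx))).1.continuousWithinAt
  set f' := Set.IccExtend hab.le (fun y : Set.Icc a b => f y) with hf'
  have hEq : Set.EqOn f' f (Set.Icc a b) := fun x hx => Set.IccExtend_of_mem _ _ hx
  have hf'c : Continuous f' := continuous_IccExtend_iff.2 hcont.domRestrict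
  refine ⟨f', hEq, hf'c, ?_⟩
  -- the combinations and their derivatives
  let G : (Fin (d + 1) → ℝ) → ℕ → ℝ → ℝ := fun c j x =>
    (if j = 0 then c 0 else 0) + pairing (Fin.tail c) (iteratedDeriv j f x)
  have hG0 : ∀ c, ∀ x ∈ Set.Icc a b,
      G c 0 x = ∑ j, c j * (Fin.cons 1 (f' x) : Fin (d + 1) → ℝ) j := fun c x hx => by
    simp [G, pairing, Fin.sum_univ_succ, Fin.tail, hEq hx]
  have hGd : ∀ c, ∀ j < N, ∀ x ∈ Set.Icc a b, HasDerivAt (G c j) (G c (j + 1) x) x := by
    intro c j hj x hx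
    simp only [G, pairing, Nat.add_one_ne_zero, if_false, zero_add]
    refine (HasDerivAt.fun_sum fun i _ => ?_).const_add _
    exact (hasDerivAt_pi.1 ((hnear x (Metric.mem_ball.1 (hsub hx))).2.1 j hj) i).const_mul _
  have hGk : ∀ c : Fin (d + 1) → ℝ, Fin.tail c ≠ 0 → ∃ k, 0 < k ∧ k ≤ N ∧
      ∀ x ∈ Set.Icc a b, ‖Fin.tail c‖ / (2 * K) ≤ |G c k x| ∧
        |G c k x| ≤ M₀ * ‖Fin.tail c‖ := by
    intro c hc
    set c' := Fin.tail c
    obtain ⟨k, hk⟩ : ∃ k : Fin N, ‖c'‖ ≤ K * |Λ c' k| := by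
      by_contra! hlt
      have hb := ZeroHomClass.bound_of_antilipschitz Λ hanti c'
      rcases isEmpty_or_nonempty (Fin N) with hN' | hN'
      · rw [Subsingleton.elim (Λ c') 0, norm_zero, mul_zero] at hb
        exact hc (norm_le_zero_iff.1 hb)
      · obtain ⟨i, -, hi⟩ := exists_max_image univ (fun i => |Λ c' i|) univ_nonempty
        refine (hlt i).not_ge (hb.trans (mul_le_mul_of_nonneg_left ?_ K.coe_nonneg))
        exact (pi_norm_le_iff_of_nonneg (abs_nonneg _)).2 fun j => hi j (mem_univ j)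
    refine ⟨k + 1, Nat.succ_pos _, k.isLt, fun x hx => ?_⟩
    have hd := (hnear x (Metric.mem_ball.1 (hsub hx))).2.2 (k + 1) k.isLt
    have hG : G c (k + 1) x = pairing c' (iteratedDeriv (k + 1) f x) := by simp [G, c']
    rw [hG]
    constructor
    · have h1 := (abs_pairing_le c' (iteratedDeriv (k + 1) f x - iteratedDeriv (k + 1) f x₀)).trans
        (mul_le_mul_of_nonneg_left hd (by positivity))
      rw [pairing_sub] at h1
      have h2 : |Λ c' k| - d * ‖c'‖ * η ≤ |pairing c' (iteratedDeriv (k + 1) f x)| := by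
        have := abs_sub_abs_le_abs_sub (Λ c' k) (pairing c' (iteratedDeriv (k + 1) f x))
        rw [abs_sub_comm] at h1
        change |Λ c' k - pairing c' (iteratedDeriv (k + 1) f x)| ≤ _ at h1
        linarith
      rw [div_le_iff₀ (by positivity)]
      have h3 : 2 * ((K : ℝ) * d) * η ≤ 1 := by
        rw [hη, mul_one_div, div_le_one (by positivity)]
        linarith
      nlinarith [mul_le_mul_of_nonneg_left h2 (by positivity : (0 : ℝ) ≤ 2 * K),
        mul_le_mul_of_nonneg_right h3 (norm_nonneg c')]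
    · refine (abs_pairing_le _ _).trans ?_
      rw [hM₀, mul_right_comm]
      refine mul_le_mul_of_nonneg_right (mul_le_mul_of_nonneg_left ?_ d.cast_nonneg)
        (norm_nonneg _)
      refine (norm_le_norm_add_norm_sub' _ (iteratedDeriv (k + 1) f x₀)).trans (add_le_add ?_ hd)
      exact single_le_sum (f := fun j => ‖iteratedDeriv j f x₀‖) (fun _ _ => norm_nonneg _)
        (mem_range.2 (by omega))
  -- the combinations are uniformly large
  let L : (Fin (d + 1) → ℝ) →ₗ[ℝ] C(Set.Icc a b, ℝ) :=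
    { toFun := fun c => ⟨fun y => ∑ j, c j * (Fin.cons 1 (f' y) : Fin (d + 1) → ℝ) j, by
        refine continuous_finsetSum _ fun j _ => continuous_const.mul ?_
        refine Fin.cases ?_ (fun i => ?_) j
        · simpa using continuous_const
        · simp only [Fin.cons_succ]
          exact (continuous_apply i).comp (hf'c.comp continuous_subtype_val)⟩
      map_add' := fun c c' => by ext y; simp [add_mul, sum_add_distrib]
      map_smul' := fun z c => by ext y; simp [mul_sum, mul_assoc] }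
  have hLker : LinearMap.ker L = ⊥ := by
    refine LinearMap.ker_eq_bot'.2 fun c hc => ?_
    have hz : ∀ x ∈ Set.Icc a b, G c 0 x = 0 := fun x hx =>
      (hG0 c x hx).trans (DFunLike.congr_fun hc ⟨x, hx⟩)
    have hc' : Fin.tail c = 0 := by
      by_contra hne
      obtain ⟨k, -, hkN, hk⟩ := hGk c hne
      set z : Fin (k + 1) → ℝ := fun i => a + (b - a) * ((i : ℝ) / (k + 1)) with hzdef
      have hmem : ∀ i, z i ∈ Set.Icc a b := fun i => by
        have h1 : (i : ℝ) / (k + 1) ≤ 1 := by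
          rw [div_le_one (by positivity)]
          exact_mod_cast i.isLt.le
        have h2 : (0 : ℝ) ≤ (i : ℝ) / (k + 1) := by positivity
        constructor
        · linarith [mul_nonneg (sub_nonneg.2 hab.le) h2]
        · linarith [mul_le_mul_of_nonneg_left h1 (sub_nonneg.2 hab.le)]
      obtain ⟨ξ, hξ, h0⟩ := exists_eq_zero_of_zeros k (G c)
        (fun j hj => hGd c j (hj.trans_le hkN)) z
        (fun i j hij => by
          have h1 : (i : ℝ) < j := by exact_mod_cast hij
          have h2 : (i : ℝ) / (k + 1) < (j : ℝ) / (k + 1) :=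
            (div_lt_div_iff_of_pos_right (by positivity)).2 h1
          exact add_lt_add_right (mul_lt_mul_of_pos_left h2 (sub_pos.2 hab)) a)
        hmem fun i => hz _ (hmem i)
      have hlow := (hk ξ hξ).1
      rw [h0, abs_zero] at hlow
      exact (div_pos (norm_pos_iff.2 hne) (by positivity)).not_ge hlow
    have h0 := hz a ⟨le_rfl, hab.le⟩
    simp only [G, hc', pairing, Pi.zero_apply, zero_mul, sum_const_zero, add_zero, if_true] at h0
    funext j
    exact Fin.cases h0 (fun i => congrFun hc' i) j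
  obtain ⟨K', hK', hanti'⟩ := L.exists_antilipschitzWith hLker
  set R := M₀ / (1 / (2 * (K : ℝ)))
  have hM₀0 : 0 ≤ M₀ := by positivity
  have hR0 : 0 ≤ R := by positivity
  have hC1 : 1 ≤ derivConst (N + 1) R := by
    have h1 : (0 : ℝ) ≤ (N + 1 : ℕ) := Nat.cast_nonneg _
    have h2 : 1 ≤ (((N + 1 : ℕ) : ℝ) + 1) * (1 + R) + 1 :=
      le_add_of_nonneg_left (by positivity)
    rw [derivConst]
    exact one_le_mul_of_one_le_of_one_le (by linarith) h2
  refine ⟨derivConst (N + 1) R, 1 / ((2 * (N + 1) : ℕ) : ℝ), 1 / (K' : ℝ), by linarith,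
    by positivity, by positivity, fun c => ⟨?_, ?_⟩⟩
  · by_cases hc : Fin.tail c = 0
    · have hcs : ∀ i : Fin d, c i.succ = 0 := congrFun hc
      have e : (fun x => ∑ j, c j * (Fin.cons 1 (f' x) : Fin (d + 1) → ℝ) j) = fun _ => c 0 := by
        funext x
        simp [Fin.sum_univ_succ, hcs]
      rw [e]
      exact isGood_const hC1 (by positivity) a b _
    · obtain ⟨k, hk0, hkN, hk⟩ := hGk c hc
      have hpos : 0 < ‖Fin.tail c‖ := norm_pos_iff.2 hc
      have hgood := isGood_of_deriv (G := G c) (N := N + 1) hk0 (hkN.trans N.le_succ)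
        (div_pos hpos (by positivity)) (mul_nonneg hM₀0 hpos.le)
        (fun j hj => hGd c j (hj.trans_le hkN)) (fun x hx => (hk x hx).1) fun x hx => (hk x hx).2
      rw [show M₀ * ‖Fin.tail c‖ / (‖Fin.tail c‖ / (2 * K)) = R by
        simp only [R]; field_simp] at hgood
      intro l r hal hlr hrb y hy ε hε hne
      have hyI : y ∈ Set.Icc a b := ⟨hal.trans hy.1, hy.2.trans hrb⟩
      simp only [← hG0 c y hyI] at hne ⊢
      refine (measure_mono ?_).trans (hgood l r hal hlr hrb y hy ε hε hne)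
      rintro x ⟨hx, hlt⟩
      exact ⟨hx, (hG0 c x ⟨hal.trans hx.1.le, hx.2.le.trans hrb⟩).symm ▸ hlt⟩
  · have hne : Nonempty (Set.Icc a b) := ⟨⟨a, le_rfl, hab.le⟩⟩
    by_contra! hlt
    rcases eq_or_ne c 0 with rfl | hc
    · simpa using hlt a ⟨le_rfl, hab.le⟩
    · have h1 : ‖L c‖ < 1 / (K' : ℝ) * ‖c‖ :=
        (ContinuousMap.norm_lt_iff_of_nonempty _).2 fun y => hlt y.1 y.2
      rw [one_div_mul_eq_div, lt_div_iff₀' (NNReal.coe_pos.2 hK')] at h1
      exact h1.not_ge (ZeroHomClass.bound_of_antilipschitz L hanti' c)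

/-- **Kleinbock–Margulis for curves.** Almost every nondegenerate point of a curve is not very
well approximable multiplicatively. -/
theorem ae_mul_of_nondegenerate (f : ℝ → Fin d → ℝ) :
    ∀ᵐ x : ℝ, IsNondegenerateAt f x → ∀ w : ℝ, 1 < w → (mulSet (f x) w).Finite := by
  have hI : ∀ p : ℚ × ℚ, ∀ᵐ x : ℝ, ((p.1 : ℝ) < p.2 ∧ ∃ f' : ℝ → Fin d → ℝ,
      Set.EqOn f' f (Set.Icc (p.1 : ℝ) p.2) ∧ IsTame f' p.1 p.2) →
      x ∈ Set.Ioo (p.1 : ℝ) p.2 → ∀ w : ℝ, 1 < w → (mulSet (f x) w).Finite := by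
    intro p
    by_cases hp : (p.1 : ℝ) < p.2 ∧ ∃ f' : ℝ → Fin d → ℝ,
        Set.EqOn f' f (Set.Icc (p.1 : ℝ) p.2) ∧ IsTame f' p.1 p.2
    · obtain ⟨hlt, f', hEq, ht⟩ := hp
      filter_upwards [ae_not_multiplicatively_veryWellApproximable hlt ht] with x hx _ hxI
      rw [← hEq (Set.Ioo_subset_Icc_self hxI)]
      exact hx hxI
    · exact Filter.Eventually.of_forall fun x h => absurd h hp
  filter_upwards [ae_all_iff.2 hI] with x hx hnd
  obtain ⟨δ, hδ, hnear⟩ := exists_isTame_near hnd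
  obtain ⟨p, hp1, hp2⟩ := exists_rat_btwn (sub_lt_self x hδ)
  obtain ⟨q, hq1, hq2⟩ := exists_rat_btwn (lt_add_of_pos_right x hδ)
  refine hx (p, q) ⟨hp2.trans hq1, hnear _ _ (hp2.trans hq1) fun z hz => ?_⟩ ⟨hp2, hq1⟩
  rw [Metric.mem_ball, Real.dist_eq, abs_lt]
  exact ⟨by linarith [hz.1], by linarith [hz.2]⟩

theorem ae_of_nondegenerate (hd : 0 < d) (f : ℝ → Fin d → ℝ) :
    ∀ᵐ x : ℝ, IsNondegenerateAt f x → ∀ w : ℝ, (d : ℝ) < w → (formSet (f x) w).Finite := by
  filter_upwards [ae_mul_of_nondegenerate f] with x hx hnd w hw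
  exact (hx hnd (w / d) ((one_lt_div (Nat.cast_pos.2 hd)).2 hw)).subset
    (formSet_subset_mulSet hd ((Nat.cast_nonneg d).trans hw.le))

/-- An analytic curve in no affine hyperplane is nondegenerate everywhere. -/
theorem isNondegenerateAt_of_analytic {f : ℝ → Fin d → ℝ} {U : Set ℝ} (hU : IsPreconnected U)
    (hf : AnalyticOnNhd ℝ f U)
    (hind : ∀ (c : Fin d → ℝ) (z : ℝ), (∀ x ∈ U, ∑ i, c i * f x i = z) → c = 0)
    {x : ℝ} (hx : x ∈ U) : IsNondegenerateAt f x := by
  let V : ℕ →o Submodule ℝ (Fin d → ℝ) :=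
    ⟨fun N => Submodule.span ℝ (Set.range fun k : Fin N => iteratedDeriv (k + 1) f x),
      fun M N hMN => Submodule.span_mono (by
        rintro v ⟨k, rfl⟩
        exact ⟨Fin.castLE hMN k, rfl⟩)⟩
  obtain ⟨N, hN⟩ := monotone_stabilizes_iff_noetherian.2 inferInstance V
  refine ⟨N, (hf x hx).contDiffAt, ?_⟩
  by_contra htop
  obtain ⟨φ, hφ, hker⟩ := Submodule.exists_le_ker_of_lt_top _ (lt_top_iff_ne_top.2 htop)
  have hzero : ∀ k, φ (iteratedDeriv (k + 1) f x) = 0 := fun k => by
    have hmem : iteratedDeriv (k + 1) f x ∈ V (max N (k + 1)) :=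
      Submodule.subset_span ⟨⟨k, lt_of_lt_of_le k.lt_succ_self (le_max_right _ _)⟩, rfl⟩
    rw [← hN _ (le_max_left _ _)] at hmem
    exact hker hmem
  set L := LinearMap.toContinuousLinearMap φ with hL
  set g : ℝ → ℝ := fun y => -φ (f x) + L (f y) with hg
  have hga : AnalyticOnNhd ℝ g U := fun y hy =>
    analyticAt_const.add ((L.analyticAt _).comp (hf y hy))
  have hit : ∀ i, iteratedDeriv i g x = 0 := by
    rintro (_ | i)
    · simp [hg, hL]
    · rw [hg, iteratedDeriv_const_add i.succ_pos, iteratedDeriv_eq_iteratedFDeriv,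
        show (fun y => L (f y)) = L ∘ f from rfl,
        L.iteratedFDeriv_comp_left (hf x hx).contDiffAt le_rfl]
      exact hzero i
  have htop' : analyticOrderAt g x = ⊤ := ENat.eq_top_iff_forall_ge.2 fun n =>
    (natCast_le_analyticOrderAt_iff_iteratedDeriv_eq_zero (hga x hx)).2 fun i _ => hit i
  have hEq := hga.eqOn_zero_of_preconnected_of_eventuallyEq_zero hU hx
    (analyticOrderAt_eq_top.1 htop')
  refine hφ (LinearMap.pi_ext fun i z => ?_)
  have hc := hind (fun i => φ (Pi.single i 1)) (φ (f x)) fun y hy => by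
    have h0 : -φ (f x) + φ (f y) = 0 := hEq hy
    have hexp : φ (f y) = ∑ i, φ (Pi.single i 1) * f y i := by
      conv_lhs => rw [pi_eq_sum_univ' (f y), map_sum]
      exact sum_congr rfl fun i _ => by rw [map_smul, smul_eq_mul, mul_comm]
    linarith
  rw [← mul_one z, ← smul_eq_mul, Pi.single_smul, map_smul, congrFun hc i]
  simp

/-- **Analytic curves in no affine hyperplane are extremal.** -/
theorem ae_analytic_curve (hd : 0 < d) {f : ℝ → Fin d → ℝ} {U : Set ℝ} (hU : IsPreconnected U)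
    (hf : AnalyticOnNhd ℝ f U)
    (hind : ∀ (c : Fin d → ℝ) (z : ℝ), (∀ x ∈ U, ∑ i, c i * f x i = z) → c = 0) :
    ∀ᵐ x : ℝ, x ∈ U → ∀ w : ℝ, (d : ℝ) < w → (formSet (f x) w).Finite := by
  filter_upwards [ae_of_nondegenerate hd f] with x hx hxU
  exact hx (isNondegenerateAt_of_analytic hU hf hind hxU)

end FA.Nondivergence
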