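import Fermat.Agent.Nondivergence.PolynomialCurve
import Fermat.Agent.Root.SummaryOrthogonalUnits
import Mathlib.Analysis.Normed.Algebra.Exponential
import Mathlib.LinearAlgebra.Matrix.Charpoly.Coeff
import Mathlib.Topology.Instances.Matrix

/-!
# Nondivergence of polynomial and unipotent orbits

The minors along a polynomial orbit `s ↦ P s * ℤ ^ n` are polynomials, hence good, and at `s = 0`
they are bounded below in terms of the starting lattice. So the orbit has short vectors only for a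
small proportion of every interval `[0, T]`, and by Mahler's criterion does not diverge.
-/

set_option autoImplicit false

noncomputable section

open Finset Matrix MeasureTheory Polynomial Filter
open scoped ENNReal NNReal Topology

namespace FA.Nondivergence

variable {n k D : ℕ}

/-- A polynomial matrix evaluated at `s`. -/
def evalMatrix (P : Matrix (Fin n) (Fin n) ℝ[X]) (s : ℝ) : Matrix (Fin n) (Fin n) ℝ :=
  P.map fun p => p.eval s

/-- The minor on `I` as a polynomial. -/
def minorPoly (P : Matrix (Fin n) (Fin n) ℝ[X]) (v : Fin k → Fin n → ℤ) (I : Fin k → Fin n) :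
    ℝ[X] :=
  ∑ J : Fin k → Fin n, C (intMinor v J : ℝ) * ∏ b, P (I b) (J b)

theorem eval_minorPoly (P : Matrix (Fin n) (Fin n) ℝ[X]) (v : Fin k → Fin n → ℤ)
    (I : Fin k → Fin n) (s : ℝ) : (minorPoly P v I).eval s = minor (evalMatrix P s) v I := by
  rw [minorPoly, eval_finsetSum, minor_eq_sum]
  refine sum_congr rfl fun J _ => ?_
  rw [eval_mul, eval_C, eval_prod, cast_intMinor, mul_comm]
  rfl

theorem natDegree_minorPoly_le {P : Matrix (Fin n) (Fin n) ℝ[X]}
    (hP : ∀ i j, (P i j).natDegree ≤ D) (v : Fin k → Fin n → ℤ) (I : Fin k → Fin n) :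
    (minorPoly P v I).natDegree ≤ k * D := by
  refine natDegree_sum_le_of_forall_le _ _ fun J _ => (natDegree_C_mul_le _ _).trans ?_
  refine (natDegree_prod_le _ _).trans ((sum_le_card_nsmul _ _ D fun b _ => hP _ _).trans_eq ?_)
  rw [card_univ, Fintype.card_fin, smul_eq_mul]

theorem continuous_plucker_poly (P : Matrix (Fin n) (Fin n) ℝ[X]) (v : Fin k → Fin n → ℤ) :
    Continuous fun s => plucker (evalMatrix P s) v := by
  refine (continuous_pi fun I => ?_).norm
  simp only [← eval_minorPoly]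
  exact (minorPoly P v I).continuous

theorem isGood_plucker_poly {P : Matrix (Fin n) (Fin n) ℝ[X]}
    (hP : ∀ i j, (P i j).natDegree ≤ D) (v : Fin k → Fin n → ℤ) (a b : ℝ) :
    IsGood (polyConst (n * D + 1)) (1 / (n * D + 1 : ℕ)) a b
      fun s => plucker (evalMatrix P s) v := by
  intro l r hl hlr hr y hy ε hε hne
  rcases isEmpty_or_nonempty (Fin k → Fin n) with h | h
  · refine absurd (norm_le_zero_iff.1 ?_) (norm_ne_zero_iff.1 hne)
    exact (pi_norm_le_iff_of_nonneg le_rfl).2 fun I => isEmptyElim I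
  obtain ⟨I, -, hI⟩ := exists_max_image univ (fun I => |minor (evalMatrix P y) v I|) univ_nonempty
  have heq : plucker (evalMatrix P y) v = |minor (evalMatrix P y) v I| :=
    le_antisymm ((pi_norm_le_iff_of_nonneg (abs_nonneg _)).2 fun J => by
      rw [Real.norm_eq_abs]; exact hI J (mem_univ J)) (abs_minor_le _ _ _)
  simp only [heq] at hne ⊢
  have hIinj : Function.Injective I := by
    by_contra hni
    simp only [Function.Injective, not_forall] at hni
    obtain ⟨p, q, hpq, hne'⟩ := hni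
    refine hne ?_
    rw [minor, det_zero_of_column_eq hne' fun i => by simp [hpq], abs_zero]
  have hkn : k ≤ n := by simpa using Fintype.card_le_of_injective I hIinj
  have hg := isGood_polynomial (Nat.succ_pos (n * D)) (p := minorPoly P v I)
    ((natDegree_minorPoly_le hP v I).trans ((Nat.mul_le_mul_right D hkn).trans (Nat.le_succ _)))
    a b l r hl hlr hr y hy ε hε
  simp only [eval_minorPoly, Nat.succ_eq_add_one] at hg
  refine le_trans (measure_mono ?_)
    ((hg fun e => hne (by rw [e, abs_zero])).trans_eq (by simp only [abs_abs]))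
  rintro z ⟨hz1, hz2⟩
  exact ⟨hz1, (abs_minor_le _ _ _).trans_lt ((le_abs_self _).trans_lt hz2)⟩

/-- An invertible matrix has all its Plücker norms bounded below. -/
theorem one_le_mul_plucker {A B : Matrix (Fin n) (Fin n) ℝ} (hBA : B * A = 1) {β : ℝ}
    (hβ : 1 ≤ β) (hB : ∀ i j, |B i j| ≤ β) {v : Fin k → Fin n → ℤ} (hk : 0 < k) (hv : Indep v) :
    1 ≤ ((n : ℝ) * β) ^ n * plucker A v := by
  obtain ⟨I, hI⟩ := exists_intMinor_ne_zero hv
  have hkn := indep_card_le hv
  have h1 : (1 : ℝ) ≤ |(intMinor v I : ℝ)| := by exact_mod_cast Int.one_le_abs hI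
  have hpow : ((n : ℝ) * β) ^ k ≤ ((n : ℝ) * β) ^ n :=
    pow_le_pow_right₀ (one_le_mul_of_one_le_of_one_le (by exact_mod_cast hk.trans_le hkn) hβ) hkn
  refine h1.trans (le_trans ?_ (mul_le_mul_of_nonneg_right hpow (norm_nonneg _)))
  rw [intMinor_eq_sum_minor hBA]
  refine (abs_sum_le_sum_abs _ _).trans ((sum_le_card_nsmul _ _ (β ^ k * plucker A v)
    fun J _ => ?_).trans_eq ?_)
  · rw [abs_mul, abs_prod]
    refine mul_le_mul ((prod_le_prod (fun _ _ => abs_nonneg _) fun b _ => hB _ _).trans_eq ?_)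
      (abs_minor_le A v J) (abs_nonneg _) (by positivity)
    rw [prod_const, card_univ, Fintype.card_fin]
  · rw [card_univ, Fintype.card_fun, Fintype.card_fin, Fintype.card_fin, nsmul_eq_mul,
      Nat.cast_pow, mul_pow, mul_assoc]

/-- **Nondivergence of a polynomial orbit** that starts in a lattice with bounded inverse. -/
theorem exists_eps_polynomial (n D : ℕ) {β δ : ℝ} (hβ : 1 ≤ β) (hδ : 0 < δ) :
    ∃ ε : ℝ, 0 < ε ∧ ∀ P : Matrix (Fin n) (Fin n) ℝ[X], (∀ i j, (P i j).natDegree ≤ D) →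
      (∀ s, |(evalMatrix P s).det| = 1) → (∀ i j, |(evalMatrix P 0)⁻¹ i j| ≤ β) →
      ∀ T : ℝ, 0 < T → volume {s ∈ Set.Icc 0 T | ∃ w : Fin n → ℤ, w ≠ 0 ∧
        ‖evalMatrix P s *ᵥ toR w‖ < ε} ≤ ENNReal.ofReal (δ * T) := by
  set D' := n * D + 1 with hD'
  set ρ : ℝ := 1 / (((n : ℝ) + 1) * β) ^ (n + 1) with hρdef
  have hnβ : 1 ≤ ((n : ℝ) + 1) * β :=
    one_le_mul_of_one_le_of_one_le (le_add_of_nonneg_left n.cast_nonneg) hβ
  have hρ : 0 < ρ := by positivity
  set c : ℝ := nondivConst (polyConst D') n with hcdef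
  have hc : 0 ≤ c := nondivConst_nonneg (by unfold polyConst; positivity) n
  set μ : ℝ := min 1 (δ / (c + 1)) with hμdef
  have hμ : 0 < μ := lt_min one_pos (div_pos hδ (by linarith))
  refine ⟨ρ * μ ^ D', by positivity, fun P hP hdet hB T hT => ?_⟩
  set ε := ρ * μ ^ D' with hε
  have hερ : ε ≤ ρ :=
    mul_le_of_le_one_right hρ.le (pow_le_one₀ hμ.le (min_le_left _ _))
  have hinv : ∀ s, (evalMatrix P s)⁻¹ * evalMatrix P s = 1 := fun s =>
    Matrix.nonsing_inv_mul _ (isUnit_iff_ne_zero.2 fun h => by simpa [h] using hdet s)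
  have hρn : (n : ℝ) * ρ ≤ 1 := by
    rw [hρdef, mul_one_div, div_le_one (by positivity)]
    exact le_trans (le_trans (le_add_of_nonneg_right zero_le_one)
      (le_mul_of_one_le_right (by positivity) hβ)) (le_self_pow₀ hnβ n.succ_ne_zero)
  have hm := measure_not_marked_le (ι := RatSubspace n) (C := polyConst D')
    (α := 1 / (D' : ℝ)) (ρ := ρ) (ε := ε) (by unfold polyConst; positivity) (by positivity) hερ
    (by positivity) (fun S s => RatSubspace.norm (evalMatrix P s) S) n Set.univ 0 T hT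
    (fun F _ hF => card_chain_le F hF)
    (fun S _ => ⟨continuous_plucker_poly P S.rep, fun _ => norm_nonneg _,
      isGood_plucker_poly hP S.rep 0 T, 0, ⟨le_rfl, hT.le⟩, by
        have h := one_le_mul_plucker (hinv 0) hβ hB S.rank_pos S.indep_rep
        rw [hρdef, div_le_iff₀ (by positivity), mul_comm]
        refine h.trans (mul_le_mul_of_nonneg_right ?_ (norm_nonneg _))
        exact le_trans (pow_le_pow_left₀ (by positivity)
          (mul_le_mul_of_nonneg_right (le_add_of_nonneg_right zero_le_one) (by linarith)) n)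
          (pow_le_pow_right₀ hnβ n.le_succ)⟩)
    (fun s _ => (finite_norm_lt (hinv s) ρ).subset fun S hS => hS.2)
  have hnull : volume ({0, T} : Set ℝ) = 0 := (Set.toFinite _).measure_zero _
  calc volume _ ≤ volume ({x ∈ Set.Ioo 0 T | ¬IsMarked Set.univ
          (fun S s => RatSubspace.norm (evalMatrix P s) S) ε ρ x} ∪ {0, T}) := by
        refine measure_mono ?_
        rintro s ⟨⟨h0, h1⟩, w, hw, hlt⟩
        rcases eq_or_lt_of_le h0 with rfl | h0
        · exact Or.inr (Or.inl rfl)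
        rcases eq_or_lt_of_le h1 with rfl | h1
        · exact Or.inr (Or.inr rfl)
        exact Or.inl ⟨⟨h0, h1⟩, fun hmk => absurd hlt (not_lt.2
          (le_norm_of_isMarked (by positivity) hερ hρn (evalMatrix P) hmk hw))⟩
    _ ≤ volume {x ∈ Set.Ioo 0 T | ¬IsMarked Set.univ
          (fun S s => RatSubspace.norm (evalMatrix P s) S) ε ρ x} + volume ({0, T} : Set ℝ) :=
        measure_union_le _ _
    _ ≤ ENNReal.ofReal (δ * T) := by
        rw [hnull, add_zero]
        refine hm.trans (ENNReal.ofReal_le_ofReal ?_)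
        rw [sub_zero, hε, mul_div_cancel_left₀ _ hρ.ne', one_div,
          Real.pow_rpow_inv_natCast hμ.le (Nat.succ_ne_zero _)]
        refine mul_le_mul_of_nonneg_right ?_ hT.le
        calc c * μ ≤ (c + 1) * (δ / (c + 1)) :=
              mul_le_mul (by linarith) (min_le_right _ _) hμ.le (by linarith)
          _ = δ := mul_div_cancel₀ _ (by linarith)

theorem evalMatrix_mul (P Q : Matrix (Fin n) (Fin n) ℝ[X]) (s : ℝ) :
    evalMatrix (P * Q) s = evalMatrix P s * evalMatrix Q s :=
  Matrix.map_mul (f := evalRingHom s)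

theorem evalMatrix_C (g : Matrix (Fin n) (Fin n) ℝ) (s : ℝ) :
    evalMatrix (g.map Polynomial.C) s = g := by
  ext i j
  simp [evalMatrix]

theorem natDegree_mul_map_C_le {P : Matrix (Fin n) (Fin n) ℝ[X]}
    (hP : ∀ i j, (P i j).natDegree ≤ D) (g : Matrix (Fin n) (Fin n) ℝ) (i j : Fin n) :
    ((P * g.map Polynomial.C) i j).natDegree ≤ D := by
  rw [Matrix.mul_apply]
  refine natDegree_sum_le_of_forall_le _ _ fun m _ => ?_
  rw [Matrix.map_apply]
  exact (natDegree_mul_C_le _ _).trans (hP i m)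

/-- The matrix of a change of basis of `ℤ ^ n`. -/
def unitMatrix (U : GL (Fin n) ℤ) : Matrix (Fin n) (Fin n) ℝ :=
  (U : Matrix (Fin n) (Fin n) ℤ).map fun z : ℤ => (z : ℝ)

theorem unitMatrix_mul (U V : GL (Fin n) ℤ) :
    unitMatrix U * unitMatrix V = unitMatrix (U * V) :=
  (Matrix.map_mul (f := Int.castRingHom ℝ)).symm

theorem unitMatrix_one : unitMatrix (1 : GL (Fin n) ℤ) = 1 := by
  ext i j
  simp [unitMatrix, Matrix.one_apply, apply_ite]

theorem abs_det_unitMatrix (U : GL (Fin n) ℤ) : |(unitMatrix U).det| = 1 := by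
  have h : IsUnit ((U : Matrix (Fin n) (Fin n) ℤ).det) :=
    (Matrix.isUnit_iff_isUnit_det _).1 U.isUnit
  have e : (unitMatrix U).det = (((U : Matrix (Fin n) (Fin n) ℤ).det : ℤ) : ℝ) :=
    ((Int.castRingHom ℝ).map_det _).symm
  rcases Int.isUnit_iff.1 h with h1 | h1 <;> simp [e, h1]

/-- **Dani–Margulis nondivergence.** Polynomial orbits of bounded degree starting in a compact
set of lattices spend all but a fraction `δ` of every interval in one compact set. -/
theorem exists_compact_polynomial (n D : ℕ) {K : Set (Matrix (Fin n) (Fin n) ℝ)}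
    (hK : IsCompact K) {δ : ℝ} (hδ : 0 < δ) :
    ∃ K' : Set (Matrix (Fin n) (Fin n) ℝ), IsCompact K' ∧ (∀ h ∈ K', |h.det| = 1) ∧
      ∀ P : Matrix (Fin n) (Fin n) ℝ[X], (∀ i j, (P i j).natDegree ≤ D) →
      (∀ s, |(evalMatrix P s).det| = 1) →
      (∃ U : GL (Fin n) ℤ, evalMatrix P 0 * unitMatrix U ∈ K) →
      ∀ T : ℝ, 0 < T → volume {s ∈ Set.Icc 0 T |
        ∀ U : GL (Fin n) ℤ, evalMatrix P s * unitMatrix U ∉ K'} ≤ ENNReal.ofReal (δ * T) := by
  obtain ⟨β, hβ⟩ := hK.exists_bound_of_continuousOn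
    (f := fun h : Matrix (Fin n) (Fin n) ℝ => ∑ i, ∑ j, |h.adjugate i j|)
    (Continuous.continuousOn (continuous_finsetSum _ fun i _ => continuous_finsetSum _ fun j _ =>
      (continuous_id.matrix_adjugate.matrix_elem i j).abs))
  obtain ⟨ε, hε, hgood⟩ := exists_eps_polynomial n D (le_max_left 1 β) hδ
  obtain ⟨K', hK', hK'det, hred⟩ := FA.Summary.mahler_compactness n (pow_pos hε 2)
  refine ⟨K', hK', hK'det, fun P hP hdet ⟨U₀, hU₀⟩ T hT => ?_⟩
  set Q := P * (unitMatrix U₀).map Polynomial.C with hQdef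
  have hQ : ∀ s, evalMatrix Q s = evalMatrix P s * unitMatrix U₀ := fun s => by
    rw [hQdef, evalMatrix_mul, evalMatrix_C]
  have hQdet : ∀ s, |(evalMatrix Q s).det| = 1 := fun s => by
    rw [hQ, det_mul, abs_mul, hdet, abs_det_unitMatrix, one_mul]
  have hQ0 : ∀ i j, |(evalMatrix Q 0)⁻¹ i j| ≤ max 1 β := fun i j => by
    have hb := hβ _ (hQ 0 ▸ hU₀)
    rw [Real.norm_eq_abs, abs_of_nonneg (sum_nonneg fun _ _ => sum_nonneg fun _ _ => abs_nonneg _)]
      at hb
    rw [Matrix.inv_def, Ring.inverse_eq_inv', Matrix.smul_apply, smul_eq_mul, abs_mul, abs_inv,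
      hQdet, inv_one, one_mul]
    refine le_trans ?_ (hb.trans (le_max_right _ _))
    exact (single_le_sum (fun j _ => abs_nonneg _) (mem_univ j)).trans
      (single_le_sum (f := fun i => ∑ j, |(evalMatrix Q 0).adjugate i j|)
        (fun _ _ => sum_nonneg fun _ _ => abs_nonneg _) (mem_univ i))
  refine (measure_mono ?_).trans (hgood Q (natDegree_mul_map_C_le hP _) hQdet hQ0 T hT)
  rintro s ⟨hs, hout⟩
  refine ⟨hs, ?_⟩
  by_contra! hno
  obtain ⟨U, hU⟩ := hred (evalMatrix Q s) (hQdet s) fun v hv => by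
    have h1 := hno v hv
    obtain ⟨i, hi⟩ : ∃ i, ε ≤ |(evalMatrix Q s *ᵥ toR v) i| := by
      by_contra! hall
      exact h1.not_gt ((pi_norm_lt_iff hε).2 hall)
    calc ε ^ 2 ≤ (evalMatrix Q s *ᵥ toR v) i ^ 2 := by
          rw [← sq_abs ((evalMatrix Q s *ᵥ toR v) i)]
          exact pow_le_pow_left₀ hε.le hi 2
      _ ≤ _ := single_le_sum (f := fun i => (evalMatrix Q s *ᵥ toR v) i ^ 2)
          (fun i _ => sq_nonneg _) (mem_univ i)
  refine hout (U₀ * U) ?_
  rw [← unitMatrix_mul, ← mul_assoc, ← hQ]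
  exact hU

/-- **No polynomial orbit diverges.** -/
theorem not_divergent_polynomial {P : Matrix (Fin n) (Fin n) ℝ[X]}
    (hdet : ∀ s, |(evalMatrix P s).det| = 1) :
    ∃ K : Set (Matrix (Fin n) (Fin n) ℝ), IsCompact K ∧ (∀ h ∈ K, |h.det| = 1) ∧
      ∀ S : ℝ, ∃ s, S ≤ s ∧ ∃ U : GL (Fin n) ℤ, evalMatrix P s * unitMatrix U ∈ K := by
  obtain ⟨K, hK, hKdet, h⟩ := exists_compact_polynomial n
    (univ.sup fun p : Fin n × Fin n => (P p.1 p.2).natDegree) (K := {evalMatrix P 0})
    isCompact_singleton one_half_pos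
  refine ⟨K, hK, hKdet, fun S => ?_⟩
  by_contra! hall
  set T : ℝ := 4 * (|S| + 1) with hT
  have hb := (measure_mono (s := Set.Ioo |S| T) fun s hs =>
    (⟨⟨(abs_nonneg S).trans hs.1.le, hs.2.le⟩, hall s ((le_abs_self S).trans hs.1.le)⟩ :
      s ∈ {s ∈ Set.Icc 0 T | ∀ U : GL (Fin n) ℤ, evalMatrix P s * unitMatrix U ∉ K})).trans
    (h P (fun i j => le_sup (f := fun p : Fin n × Fin n => (P p.1 p.2).natDegree)
        (mem_univ (i, j))) hdet ⟨1, by rw [unitMatrix_one, mul_one]; rfl⟩ T (by positivity))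
  rw [Real.volume_Ioo, ENNReal.ofReal_le_ofReal_iff (by positivity)] at hb
  linarith [abs_nonneg S]

/-- The one-parameter group of a nilpotent matrix as a polynomial matrix. -/
def expPoly (N : Matrix (Fin n) (Fin n) ℝ) : Matrix (Fin n) (Fin n) ℝ[X] :=
  ∑ j ∈ range (n + 1), (monomial j ((j.factorial : ℝ)⁻¹)) • (N ^ j).map Polynomial.C

theorem pow_eq_zero_of_isNilpotent {N : Matrix (Fin n) (Fin n) ℝ} (hN : IsNilpotent N) :
    N ^ n = 0 := by
  have h : N.charpoly = Polynomial.X ^ n := by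
    have := (Matrix.isNilpotent_charpoly_sub_pow_of_isNilpotent hN).eq_zero
    rwa [Fintype.card_fin, sub_eq_zero] at this
  simpa [h] using N.aeval_self_charpoly

theorem eval_expPoly {N : Matrix (Fin n) (Fin n) ℝ} (hN : IsNilpotent N) (s : ℝ) :
    evalMatrix (expPoly N) s = NormedSpace.exp (s • N) := by
  rw [NormedSpace.exp_eq_tsum ℝ]
  dsimp only
  rw [tsum_eq_sum (s := range (n + 1)) fun j hj => by
    rw [smul_pow, pow_eq_zero_of_le (by rw [mem_range] at hj; omega)
      (pow_eq_zero_of_isNilpotent hN), smul_zero, smul_zero]]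
  ext i j
  simp only [evalMatrix, expPoly, Matrix.map_apply, Matrix.sum_apply, Matrix.smul_apply,
    smul_eq_mul, eval_finsetSum, eval_mul, eval_monomial, eval_C, smul_pow]
  exact sum_congr rfl fun m _ => by ring

theorem natDegree_expPoly_le (N : Matrix (Fin n) (Fin n) ℝ) (i j : Fin n) :
    (expPoly N i j).natDegree ≤ n := by
  simp only [expPoly, Matrix.sum_apply, Matrix.smul_apply, Matrix.map_apply, smul_eq_mul]
  exact natDegree_sum_le_of_forall_le _ _ fun m hm => (natDegree_mul_C_le _ _).trans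
    ((natDegree_monomial_le _).trans (Nat.lt_succ_iff.1 (mem_range.1 hm)))

theorem det_exp_of_isNilpotent {N : Matrix (Fin n) (Fin n) ℝ} (hN : IsNilpotent N) :
    (NormedSpace.exp N).det = 1 := by
  have hnil : IsNilpotent (1 - NormedSpace.exp N) := by
    rw [← one_smul ℝ N, ← eval_expPoly hN]
    have e : 1 - evalMatrix (expPoly N) (1 : ℝ) =
        N * -∑ j ∈ range n, (((j + 1).factorial : ℝ)⁻¹) • N ^ j := by
      have : evalMatrix (expPoly N) (1 : ℝ) =
          ∑ j ∈ range (n + 1), ((j.factorial : ℝ)⁻¹) • N ^ j := by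
        ext i j
        simp [evalMatrix, expPoly, Matrix.sum_apply, eval_finsetSum]
      rw [this, sum_range_succ', pow_zero, Nat.factorial_zero, Nat.cast_one, inv_one, one_smul,
        mul_neg, mul_sum]
      simp [pow_succ']
    rw [e]
    exact Commute.isNilpotent_mul_right ((Commute.sum_right _ _ _ fun j _ =>
      ((Commute.self_pow N j).smul_right _)).neg_right) hN
  have h := (Matrix.isNilpotent_charpoly_sub_pow_of_isNilpotent hnil).eq_zero
  rw [sub_eq_zero] at h
  have h1 := congrArg (Polynomial.eval (1 : ℝ)) h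
  rwa [Matrix.eval_charpoly, eval_pow, eval_X, one_pow, map_one, sub_sub_cancel] at h1

/-- **Margulis.** Unipotent flows do not diverge, in Dani's quantitative form. -/
theorem exists_compact_unipotent {N : Matrix (Fin n) (Fin n) ℝ} (hN : IsNilpotent N)
    {K : Set (Matrix (Fin n) (Fin n) ℝ)} (hK : IsCompact K) (hKdet : ∀ h ∈ K, |h.det| = 1)
    {δ : ℝ} (hδ : 0 < δ) :
    ∃ K' : Set (Matrix (Fin n) (Fin n) ℝ), IsCompact K' ∧ (∀ h ∈ K', |h.det| = 1) ∧
      ∀ g ∈ K, ∀ T : ℝ, 0 < T → volume {s ∈ Set.Icc 0 T |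
        ∀ U : GL (Fin n) ℤ, NormedSpace.exp (s • N) * g * unitMatrix U ∉ K'} ≤
        ENNReal.ofReal (δ * T) := by
  obtain ⟨K', hK', hK'det, h⟩ := exists_compact_polynomial n n hK hδ
  refine ⟨K', hK', hK'det, fun g hg T hT => ?_⟩
  have e : ∀ s, evalMatrix (expPoly N * g.map Polynomial.C) s = NormedSpace.exp (s • N) * g :=
    fun s => by rw [evalMatrix_mul, evalMatrix_C, eval_expPoly hN]
  have := h _ (natDegree_mul_map_C_le (natDegree_expPoly_le N) g)
    (fun s => by rw [e, det_mul, det_exp_of_isNilpotent (hN.smul s), one_mul, hKdet g hg])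
    ⟨1, by rw [e, zero_smul, NormedSpace.exp_zero, one_mul, unitMatrix_one, mul_one]; exact hg⟩
    T hT
  simpa only [e] using this

end FA.Nondivergence
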